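import Fermat.Agent.Auto.Twist.Relation

/-!
Semisimplicity of the twisted operators and change of coefficients.
-/

set_option autoImplicit false
set_option linter.unusedSectionVars false

noncomputable section

namespace Fermat.Agent.Auto.Tw

open CongruenceSubgroup
open Fermat.Agent.GalRep (GoodPrime GoodPrimeOff evFormsOff)
open scoped MatrixGroups IsMulCommutative

/-! ### A squarefree annihilator -/

theorem dvd_radical_pow (g : Polynomial ℚ) (hg : g ≠ 0) :
    ∃ N : ℕ, g ∣ UniqueFactorizationMonoid.radical g ^ N := by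
  classical
  refine ⟨(UniqueFactorizationMonoid.normalizedFactors g).card,
    (UniqueFactorizationMonoid.prod_normalizedFactors hg).symm.dvd.trans ?_⟩
  have h : ∀ a ∈ UniqueFactorizationMonoid.normalizedFactors g,
      a ∣ UniqueFactorizationMonoid.radical g := fun a ha =>
    (UniqueFactorizationMonoid.dvd_radical_iff_of_irreducible
      (UniqueFactorizationMonoid.irreducible_of_normalized_factor a ha) hg).mpr
      (UniqueFactorizationMonoid.dvd_of_mem_normalizedFactors ha)
  revert h
  generalize UniqueFactorizationMonoid.normalizedFactors g = s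
  induction s using Multiset.induction with
  | empty => simp
  | cons a s ih =>
    intro h
    rw [Multiset.prod_cons, Multiset.card_cons, pow_succ']
    exact mul_dvd_mul (h a (Multiset.mem_cons_self a s))
      (ih fun b hb => h b (Multiset.mem_cons_of_mem hb))

theorem exists_squarefree_annihilator {B : Type} [CommRing B] [IsReduced B] [IsAddTorsionFree B]
    [Module.Finite ℤ B] (T : B) :
    ∃ f : Polynomial ℤ, Polynomial.aeval T f = 0 ∧
      Squarefree (f.map (Int.castRingHom ℚ)) := by
  obtain ⟨g, hg, hgT⟩ := (IsIntegral.of_finite ℤ T : IsIntegral ℤ T)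
  set gq := g.map (Int.castRingHom ℚ)
  have hgq : gq ≠ 0 := (hg.map _).ne_zero
  obtain ⟨N, r, hr⟩ := dvd_radical_pow gq hgq
  obtain ⟨⟨b, hb⟩, hfb⟩ := IsLocalization.integerNormalization_map_to_map (nonZeroDivisors ℤ)
    (UniqueFactorizationMonoid.radical gq)
  obtain ⟨⟨e, he⟩, hre⟩ := IsLocalization.integerNormalization_map_to_map (nonZeroDivisors ℤ) r
  set f := IsLocalization.integerNormalization (nonZeroDivisors ℤ)
    (UniqueFactorizationMonoid.radical gq)
  set r' := IsLocalization.integerNormalization (nonZeroDivisors ℤ) r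
  have hbq : (b : ℚ) ≠ 0 := Int.cast_ne_zero.mpr (nonZeroDivisors.ne_zero hb)
  have he0 : e ≠ 0 := nonZeroDivisors.ne_zero he
  simp only [algebraMap_int_eq] at hfb hre
  have key : Polynomial.C e * f ^ N = Polynomial.C (b ^ N) * g * r' := by
    apply Polynomial.map_injective (Int.castRingHom ℚ) (RingHom.injective_int _)
    simp only [Polynomial.map_mul, Polynomial.map_pow, Polynomial.map_C, hfb, hre,
      zsmul_eq_mul, mul_pow, hr, gq]
    simp only [eq_intCast, Int.cast_pow, map_pow, map_intCast]
    ring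
  refine ⟨f, ?_, ?_⟩
  · have h0 := congrArg (Polynomial.aeval T) key
    simp only [map_mul, map_pow, Polynomial.aeval_C] at h0
    rw [show Polynomial.aeval T g = 0 from hgT, mul_zero, zero_mul, ← Algebra.smul_def] at h0
    exact IsReduced.eq_zero _ ⟨N, (smul_eq_zero.mp h0).resolve_left he0⟩
  · rw [hfb, zsmul_eq_mul]
    refine Squarefree.squarefree_of_dvd ?_ (UniqueFactorizationMonoid.squarefree_radical (a := gq))
    have hu : IsUnit (((⟨b, hb⟩ : nonZeroDivisors ℤ) : ℤ) : Polynomial ℚ) := by
      rw [← map_intCast (Polynomial.C (R := ℚ))]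
      exact (isUnit_iff_ne_zero.mpr hbq).map _
    exact (hu.mul_left_dvd).mpr dvd_rfl

variable {K : Type} [Field K] [CharZero K] [IsAlgClosed K]
variable {M D : ℕ} [NeZero M] [NeZero (M * D)] {Δ : Type} [CommGroup Δ] [Finite Δ]
  {c : (ZMod M)ˣ →* Δ}

theorem isSemisimple_twT (hD : D ∣ M) (hsq : Squarefree D)
    (hcD : ∀ u : (ZMod M)ˣ, ((u : ZMod M).val : ZMod D) = 1 → c u = 1)
    (hodd : Odd (Nat.card Δ)) (ℓ : GoodPrime M) :
    (twT M c K ℓ).IsSemisimple := by
  set S : Set ℕ := {r | r.Prime ∧ r ∣ M * D}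
  have hℓ : ¬ (ℓ.1 : ℕ) ∣ M * D := fun h =>
    (ℓ.1.2.dvd_mul.mp h).elim ℓ.2 (fun h' => ℓ.2 (h'.trans hD))
  set i : GoodPrimeOff (M * D) S := ⟨⟨ℓ.1, hℓ⟩, fun h => hℓ h.2⟩
  haveI : IsReduced (CuspForm.heckeAlgebra (M * D) 2 S) :=
    heckeAlgebra_isReduced (M * D) S fun r hr hd => ⟨hr, hd⟩
  haveI : Module.Finite ℤ (CuspForm.heckeAlgebra (M * D) 2 S) :=
    Hecke.moduleFinite_heckeAlgebra (M * D) 2 S
  obtain ⟨f, hf, hsqf⟩ := exists_squarefree_annihilator (evFormsOff S (MvPolynomial.X i))
  set W := Polynomial.aeval (FreeAlgebra.ι ℤ i) f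
  have hP : evFormsOff S
      (Polynomial.aeval (MvPolynomial.X i : MvPolynomial (GoodPrimeOff (M * D) S) ℤ) f) = 0 := by
    rw [← Polynomial.aeval_algHom_apply (evFormsOff (N := M * D) S)]; exact hf
  have hW : FreeAlgebra.lift ℤ MvPolynomial.X W =
      Polynomial.aeval (MvPolynomial.X i : MvPolynomial (GoodPrimeOff (M * D) S) ℤ) f := by
    rw [← Polynomial.aeval_algHom_apply, FreeAlgebra.lift_ι_apply]
  have h0 := lift_twOp_eq_zero (K := K) (c := c) hD hsq hcD hodd hP hW
  rw [← Polynomial.aeval_algHom_apply, FreeAlgebra.lift_ι_apply,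
    ← Polynomial.aeval_map_algebraMap K] at h0
  refine Module.End.isSemisimple_of_squarefree_aeval_eq_zero ?_ h0
  have hsep : ((f.map (Int.castRingHom ℚ)).map (algebraMap ℚ K)).Separable :=
    (PerfectField.separable_iff_squarefree.mpr hsqf).map (f := algebraMap ℚ K)
  rw [Polynomial.map_map, show (algebraMap ℚ K).comp (Int.castRingHom ℚ) = algebraMap ℤ K from
    Subsingleton.elim _ _] at hsep
  exact hsep.squarefree

theorem isSemisimple_latDia (d : (ZMod M)ˣ) : (latDia M c K d).IsSemisimple := by
  set n := Nat.card Δ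
  have hn : (n : K) ≠ 0 := Nat.cast_ne_zero.mpr Nat.card_pos.ne'
  refine Module.End.isSemisimple_of_squarefree_aeval_eq_zero
    ((Polynomial.separable_X_pow_sub_C (1 : K) hn one_ne_zero).squarefree) ?_
  have hpow : ∀ k, latDia M c K d ^ k = latDia M c K (d ^ k) := fun k => by
    induction k with
    | zero => rw [pow_zero, pow_zero, latDia_eq_one' (map_one c)]
    | succ k ih => rw [pow_succ, pow_succ, latDia_mul', ih]
  rw [map_sub, map_pow, Polynomial.aeval_X, Polynomial.aeval_C, map_one, hpow,
    latDia_eq_one' (by rw [map_pow, pow_card_eq_one']), sub_self]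

/-- The operators of the twisted algebra. -/
abbrev gens (M : ℕ) [NeZero M] {Δ : Type} [CommGroup Δ] (c : (ZMod M)ˣ →* Δ) (O : Type)
    [CommRing O] : Set (Module.End O (Lat M c O)) :=
  Set.range (twT M c O) ∪ Set.range (latDia M c O)

theorem isSemisimple_of_mem (hD : D ∣ M) (hsq : Squarefree D)
    (hcD : ∀ u : (ZMod M)ˣ, ((u : ZMod M).val : ZMod D) = 1 → c u = 1)
    (hodd : Odd (Nat.card Δ)) {y : Module.End K (Lat M c K)}
    (hy : y ∈ Algebra.adjoin K (gens M c K)) : y.IsSemisimple := by
  haveI : IsMulCommutative (Algebra.adjoin K (gens M c K)) := by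
    refine Algebra.isMulCommutative_adjoin K ?_
    rintro a (⟨ℓ, rfl⟩ | ⟨d, rfl⟩) b (⟨ℓ', rfl⟩ | ⟨d', rfl⟩)
    · exact twT_commute ℓ ℓ'
    · exact twT_latDia ℓ d'
    · exact (twT_latDia ℓ' d).symm
    · show latDia M c K d * latDia M c K d' = _
      rw [← latDia_mul', ← latDia_mul', mul_comm]
  have hcomm : ∀ {a b : Module.End K (Lat M c K)}, a ∈ Algebra.adjoin K (gens M c K) →
      b ∈ Algebra.adjoin K (gens M c K) → Commute a b := fun {a b} ha hb =>
    congrArg Subtype.val (mul_comm (⟨a, ha⟩ : Algebra.adjoin K (gens M c K)) ⟨b, hb⟩)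
  induction hy using Algebra.adjoin_induction with
  | mem z hz =>
    rcases hz with ⟨ℓ, rfl⟩ | ⟨d, rfl⟩
    · exact isSemisimple_twT hD hsq hcD hodd ℓ
    · exact isSemisimple_latDia d
  | algebraMap r =>
    rw [Algebra.algebraMap_eq_smul_one]
    exact Module.End.IsSemisimple_smul r Module.End.isSemisimple_id
  | add a b ha hb iha ihb => exact iha.add_of_commute (hcomm ha hb) ihb
  | mul a b ha hb iha ihb => exact iha.mul_of_commute (hcomm ha hb) ihb

/-- Evaluation does not depend on the coefficients of linearity. -/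
theorem lift_intLinearMap {σ R V : Type} [CommRing R] [AddCommGroup V] [Module R V]
    (f : σ → Module.End R V) (W : FreeAlgebra ℤ σ) (v : V) :
    FreeAlgebra.lift ℤ (fun i => (f i).toAddMonoidHom.toIntLinearMap) W v =
      FreeAlgebra.lift ℤ f W v := by
  induction W using FreeAlgebra.induction generalizing v with
  | grade0 r => simp
  | grade1 i => simp [FreeAlgebra.lift_ι_apply]
  | mul a b ha hb => simp [ha, hb]
  | add a b ha hb => simp [ha, hb]

/-! ### Change of coefficients -/

section Coeff

variable {R R' : Type} [CommRing R] [CommRing R'] (j : R →+* R')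

/-- Composition with a ring map. -/
def mapLat : Lat M c R →+ Lat M c R' where
  toFun v := ⟨j.toAddMonoidHom.comp (v : Additive (grp M c) →+ R), fun γ hγ => by
    rw [AddMonoidHom.comp_apply, v.2 γ hγ, map_zero]⟩
  map_zero' := Subtype.ext (AddMonoidHom.comp_zero _)
  map_add' _ _ := Subtype.ext (AddMonoidHom.comp_add _ _ _)

theorem mapLat_transferEnd {ι : Type} [Fintype ι] {β : ι → GalRep.IMat}
    (h : DS.IsReps (grp M c) β) (v : Lat M c R) :
    mapLat j (transferEnd h v) = transferEnd h (mapLat j v) :=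
  Subtype.ext (h.transfer_comp j.toAddMonoidHom (v : Additive (grp M c) →+ R)).symm

theorem mapLat_latDia (d : (ZMod M)ˣ) (v : Lat M c R) :
    mapLat j (latDia M c R d v) = latDia M c R' d (mapLat j v) :=
  mapLat_transferEnd j _ v

theorem mapLat_twT (ℓ : GoodPrime M) (v : Lat M c R) :
    mapLat j (twT M c R ℓ v) = twT M c R' ℓ (mapLat j v) := by
  show mapLat j (latT M c R ℓ (latDia M c R _ v)) = latT M c R' ℓ (latDia M c R' _ (mapLat j v))
  rw [← mapLat_latDia]
  exact mapLat_transferEnd j _ _

theorem coe_mapLat_apply (v : Lat M c R) (x : Additive (grp M c)) :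
    ((mapLat j v : Lat M c R') : Additive (grp M c) →+ R') x =
      j ((v : Additive (grp M c) →+ R) x) := rfl

theorem mapLat_injective (hj : Function.Injective j) :
    Function.Injective (mapLat (M := M) (c := c) j) := fun v w h =>
  lat_ext_apply fun γ => hj
    (DFunLike.congr_fun (congrArg Subtype.val h) (Additive.ofMul γ))

theorem mapLat_smul (r : R) (v : Lat M c R) : mapLat j (r • v) = j r • mapLat j v :=
  lat_ext_apply fun _ => map_mul j _ _

end Coeff

set_option maxHeartbeats 1000000 in
/-- Classes with values in a torsion free group are combinations of integral classes. -/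
theorem exists_decomp_lat (w : Lat M c K) :
    ∃ (ι : Type) (_ : Fintype ι) (φ : ι → Lat M c ℤ) (e : ι → K),
      w = ∑ i, e i • mapLat (Int.castRingHom K) (φ i) := by
  obtain ⟨s, hs⟩ := exists_generators_grp (M := M) (c := c)
  let f : Additive (grp M c) →+ K := (w : Additive (grp M c) →+ K)
  let W : Submodule ℤ K := Submodule.span ℤ
    ((fun g => f (Additive.ofMul g)) '' (s : Set (grp M c)))
  have hW : ∀ x, f x ∈ W := by
    intro x
    obtain ⟨γ, rfl⟩ := Additive.ofMul.surjective x
    have hγ : γ ∈ Subgroup.closure (s : Set (grp M c)) := hs ▸ Subgroup.mem_top γ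
    induction hγ using Subgroup.closure_induction with
    | mem g hg => exact Submodule.subset_span ⟨g, hg, rfl⟩
    | one => rw [ofMul_one, map_zero]; exact W.zero_mem
    | mul a b _ _ ha hb => rw [ofMul_mul, map_add]; exact W.add_mem ha hb
    | inv a _ ha => rw [ofMul_inv, map_neg]; exact W.neg_mem ha
  haveI : Module.Finite ℤ W := Module.Finite.span_of_finite ℤ ((s.finite_toSet).image _)
  haveI : Module.IsTorsionFree ℤ W :=
    Function.Injective.moduleIsTorsionFree (fun x : W => (x : K)) Subtype.val_injective (fun _ _ => rfl)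
  haveI : Module.Free ℤ W := Module.free_of_finite_type_torsion_free'
  let b := Module.Free.chooseBasis ℤ W
  let χ : Additive (grp M c) →+ W :=
    AddMonoidHom.mk' (fun x => ⟨f x, hW x⟩) fun x y => Subtype.ext (map_add f x y)
  let φ : Module.Free.ChooseBasisIndex ℤ W → Lat M c ℤ := fun i =>
    ⟨(b.coord i).toAddMonoidHom.comp χ, fun γ hγ => by
      show b.coord i (χ (Additive.ofMul γ)) = 0
      rw [show χ (Additive.ofMul γ) = 0 from Subtype.ext (w.2 γ hγ), map_zero]⟩
  refine ⟨_, inferInstance, φ, fun i => ((b i : W) : K), Subtype.ext (AddMonoidHom.ext fun x => ?_)⟩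
  have hφ : ∀ i, (φ i : Additive (grp M c) →+ ℤ) x = b.repr (χ x) i := fun i => rfl
  have hχ : (χ x : K) = f x := rfl
  rw [AddSubmonoidClass.coe_finsetSum, AddMonoidHom.finsetSum_apply]
  simp only [Submodule.coe_smul, AddMonoidHom.smul_apply, coe_mapLat_apply, hφ]
  have h := congrArg Subtype.val (b.sum_repr (χ x))
  rw [AddSubmonoidClass.coe_finsetSum, hχ] at h
  clear_value b χ φ
  refine h.symm.trans (Finset.sum_congr rfl fun i _ => ?_)
  simp [mul_comm]

end Fermat.Agent.Auto.Tw
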