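import Fermat.Agent.DS.Ops

/-!
Germs of homomorphisms on congruence subgroups: functions on `SL(2,ℤ)` up to equality on some
principal congruence subgroup, with the action of integral matrices by conjugation.
-/

set_option autoImplicit false
set_option linter.unusedSectionVars false

noncomputable section

namespace Fermat.Agent.Auto.Tw

open CongruenceSubgroup
open Fermat.Agent.GalRep (IMat trace_pow_sq_eq_four)
open Fermat.Agent.GalRep.Level (ParG)
open Fermat.Agent.DS (IsReps)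
open scoped MatrixGroups

theorem gamma_le_gamma {N N' : ℕ} (h : N ∣ N') : Gamma N' ≤ Gamma N := by
  intro γ hγ
  obtain ⟨h1, h2, h3, h4⟩ := Gamma_mem.mp hγ
  have cast_eq : ∀ x y : ℤ, (x : ZMod N') = y → (x : ZMod N) = y := fun x y e => by
    rw [ZMod.intCast_eq_intCast_iff_dvd_sub] at e ⊢
    exact (Int.natCast_dvd_natCast.mpr h).trans e
  exact Gamma_mem.mpr ⟨by simpa using cast_eq _ 1 (by simpa using h1),
    by simpa using cast_eq _ 0 (by simpa using h2),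
    by simpa using cast_eq _ 0 (by simpa using h3),
    by simpa using cast_eq _ 1 (by simpa using h4)⟩

theorem gamma_dvd {N : ℕ} {γ : SL(2, ℤ)} (hγ : γ ∈ Gamma N) (i j : Fin 2) :
    (N : ℤ) ∣ ((γ : IMat) - 1) i j := by
  obtain ⟨h1, h2, h3, h4⟩ := Gamma_mem.mp hγ
  rw [← ZMod.intCast_zmod_eq_zero_iff_dvd]
  fin_cases i <;> fin_cases j <;> simp [h1, h2, h3, h4]

/-- Conjugation by an integral matrix carries a congruence subgroup into a given one. -/
theorem exists_conj_gamma (N : ℕ) {g : IMat} (hg : g.det ≠ 0) {γ : SL(2, ℤ)}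
    (hγ : γ ∈ Gamma (N * g.det.natAbs)) :
    ∃ δ ∈ Gamma N, (δ : IMat) * g = g * (γ : IMat) := by
  have hX : ∀ i j, ∃ x, ((γ : IMat) - 1) i j = ((N : ℤ) * g.det) * x := fun i j => by
    have h := gamma_dvd hγ i j
    rw [Nat.cast_mul] at h
    exact (mul_dvd_mul_left _ (Int.dvd_natAbs.mpr dvd_rfl)).trans h
  choose X hX using hX
  set d : IMat := 1 + (N : ℤ) • (g * Matrix.of X * g.adjugate)
  have hγ' : (γ : IMat) = 1 + ((N : ℤ) * g.det) • Matrix.of X := by
    rw [← sub_eq_iff_eq_add']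
    ext i j
    rw [hX i j]
    simp
  have hd : d * g = g * (γ : IMat) := by
    simp only [d, hγ', add_mul, mul_add, one_mul, mul_one, Matrix.smul_mul, Matrix.mul_smul,
      Matrix.mul_assoc, Matrix.adjugate_mul, smul_smul]
  have hdet : d.det = 1 := by
    have h := congrArg Matrix.det hd
    rw [Matrix.det_mul, Matrix.det_mul, γ.det_coe, mul_one] at h
    exact mul_right_cancel₀ hg (h.trans (one_mul _).symm)
  refine ⟨⟨d, hdet⟩, Gamma_mem.mpr ?_, hd⟩
  show ((d 0 0 : ℤ) : ZMod N) = 1 ∧ ((d 0 1 : ℤ) : ZMod N) = 0 ∧ ((d 1 0 : ℤ) : ZMod N) = 0 ∧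
    ((d 1 1 : ℤ) : ZMod N) = 1
  simp only [d, Matrix.add_apply, Matrix.smul_apply, smul_eq_mul]
  push_cast
  simp

theorem eq_of_mul_eq {g : IMat} (hg : g.det ≠ 0) {M M' : IMat} (h : M * g = M' * g) : M = M' := by
  have := congrArg (fun X => X * g.adjugate) h
  simp only [Matrix.mul_assoc, Matrix.mul_adjugate, Matrix.mul_smul, Matrix.mul_one] at this
  exact smul_right_injective IMat hg this

open Classical in
/-- The conjugate, where it is integral. -/
def cj (g : IMat) (γ : SL(2, ℤ)) : SL(2, ℤ) :=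
  if h : ∃ δ : SL(2, ℤ), (δ : IMat) * g = g * (γ : IMat) then h.choose else 1

theorem cj_eq {g : IMat} (hg : g.det ≠ 0) {γ δ : SL(2, ℤ)}
    (h : (δ : IMat) * g = g * (γ : IMat)) : cj g γ = δ := by
  have he : ∃ δ : SL(2, ℤ), (δ : IMat) * g = g * (γ : IMat) := ⟨δ, h⟩
  rw [cj, dif_pos he]
  exact Subtype.ext (eq_of_mul_eq hg (he.choose_spec.trans h.symm))

variable (K : Type) [Field K]

/-- The functions vanishing on some congruence subgroup. -/
def germNull : Submodule K (SL(2, ℤ) → K) where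
  carrier := {f | ∃ N : ℕ, N ≠ 0 ∧ ∀ γ ∈ Gamma N, f γ = 0}
  zero_mem' := ⟨1, one_ne_zero, fun _ _ => rfl⟩
  add_mem' := by
    rintro f f' ⟨N, hN, h⟩ ⟨N', hN', h'⟩
    exact ⟨N * N', mul_ne_zero hN hN', fun γ hγ => by
      rw [Pi.add_apply, h γ (gamma_le_gamma (dvd_mul_right N N') hγ),
        h' γ (gamma_le_gamma (dvd_mul_left N' N) hγ), add_zero]⟩
  smul_mem' := by
    rintro r f ⟨N, hN, h⟩
    exact ⟨N, hN, fun γ hγ => by rw [Pi.smul_apply, h γ hγ, smul_zero]⟩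

/-- Germs. -/
abbrev Germ : Type := (SL(2, ℤ) → K) ⧸ germNull K

variable {K}

/-- The germ of a function. -/
abbrev germ (f : SL(2, ℤ) → K) : Germ K := Submodule.Quotient.mk f

theorem germ_eq {f f' : SL(2, ℤ) → K} {N : ℕ} (hN : N ≠ 0) (h : ∀ γ ∈ Gamma N, f γ = f' γ) :
    germ f = germ f' :=
  (Submodule.Quotient.eq _).mpr ⟨N, hN, fun γ hγ => by rw [Pi.sub_apply, h γ hγ, sub_self]⟩

theorem exists_of_germ_eq {f f' : SL(2, ℤ) → K} (h : germ f = germ f') :
    ∃ N, N ≠ 0 ∧ ∀ γ ∈ Gamma N, f γ = f' γ := by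
  obtain ⟨N, hN, h⟩ := (Submodule.Quotient.eq _).mp h
  exact ⟨N, hN, fun γ hγ => sub_eq_zero.mp (h γ hγ)⟩

/-- Conjugation on functions. -/
def slFun (g : IMat) : (SL(2, ℤ) → K) →ₗ[K] (SL(2, ℤ) → K) where
  toFun f γ := if g.det = 0 then 0 else f (cj g γ)
  map_add' f f' := funext fun γ => by by_cases h : g.det = 0 <;> simp [h]
  map_smul' r f := funext fun γ => by by_cases h : g.det = 0 <;> simp [h]

theorem slFun_null (g : IMat) : germNull K ≤ (germNull K).comap (slFun g) := by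
  rintro f ⟨N, hN, h⟩
  by_cases hg : g.det = 0
  · exact ⟨1, one_ne_zero, fun γ _ => if_pos hg⟩
  · refine ⟨N * g.det.natAbs, mul_ne_zero hN (Int.natAbs_ne_zero.mpr hg), fun γ hγ => ?_⟩
    obtain ⟨δ, hδ, e⟩ := exists_conj_gamma N hg hγ
    show (if g.det = 0 then 0 else f (cj g γ)) = 0
    rw [if_neg hg, cj_eq hg e, h δ hδ]

/-- The action of an integral matrix on germs. -/
def sl (g : IMat) : Germ K →ₗ[K] Germ K := (germNull K).mapQ _ (slFun g) (slFun_null g)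

theorem sl_germ {g : IMat} (hg : g.det ≠ 0) (f : SL(2, ℤ) → K) :
    sl (K := K) g (germ f) = germ fun γ => f (cj g γ) := by
  show germ (slFun g f) = _
  congr 1
  exact funext fun γ => if_neg hg

theorem sl_mul {g h : IMat} (hg : g.det ≠ 0) (hh : h.det ≠ 0) (F : Germ K) :
    sl (K := K) h (sl (K := K) g F) = sl (K := K) (g * h) F := by
  induction F using Submodule.Quotient.induction_on with
  | H f =>
    rw [show (Submodule.Quotient.mk f : Germ K) = germ f from rfl, sl_germ hg, sl_germ hh,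
      sl_germ (by rw [Matrix.det_mul]; exact mul_ne_zero hg hh)]
    refine germ_eq (N := g.det.natAbs * h.det.natAbs)
      (mul_ne_zero (Int.natAbs_ne_zero.mpr hg) (Int.natAbs_ne_zero.mpr hh)) fun γ hγ => ?_
    obtain ⟨δ, hδ, e⟩ := exists_conj_gamma g.det.natAbs hh hγ
    obtain ⟨ε, -, e'⟩ := exists_conj_gamma 1 hg (one_mul g.det.natAbs ▸ hδ)
    rw [cj_eq hh e, cj_eq hg e', cj_eq (δ := ε) (by rw [Matrix.det_mul]; exact mul_ne_zero hg hh)
      (by rw [← mul_assoc, e', mul_assoc, e, mul_assoc])]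

theorem det_scalar {c : ℤ} (hc : c ≠ 0) : (c • (1 : IMat)).det ≠ 0 := by
  rw [Matrix.det_smul, Matrix.det_one, mul_one]
  exact pow_ne_zero _ hc

theorem sl_scalar {c : ℤ} (hc : c ≠ 0) (F : Germ K) : sl (K := K) (c • (1 : IMat)) F = F := by
  induction F using Submodule.Quotient.induction_on with
  | H f =>
    rw [show (Submodule.Quotient.mk f : Germ K) = germ f from rfl, sl_germ (g := c • (1 : IMat)) (det_scalar hc)]
    refine germ_eq (N := 1) one_ne_zero fun γ _ => ?_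
    rw [cj_eq (δ := γ) (g := c • (1 : IMat)) (det_scalar hc) (by rw [mul_smul_comm, smul_mul_assoc, mul_one, one_mul])]

/-- Scalars may be dropped. -/
theorem sl_smul {c : ℤ} (hc : c ≠ 0) {g : IMat} (hg : g.det ≠ 0) (F : Germ K) :
    sl (K := K) (c • g) F = sl (K := K) g F := by
  rw [show c • g = (c • (1 : IMat)) * g by simp, ← sl_mul (det_scalar hc) hg, sl_scalar hc]

theorem sl_one (F : Germ K) : sl (K := K) (1 : IMat) F = F := by
  simpa using sl_scalar (K := K) one_ne_zero F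

/-! ## Homomorphisms -/

open Classical in
/-- The germ of a homomorphism. -/
def emb (G : Subgroup SL(2, ℤ)) : (Additive G →+ K) →ₗ[K] Germ K where
  toFun χ := germ fun γ => if h : γ ∈ G then χ (Additive.ofMul ⟨γ, h⟩) else 0
  map_add' χ χ' := by
    rw [← Submodule.Quotient.mk_add]
    congr 1
    exact funext fun γ => by by_cases h : γ ∈ G <;> simp [h]
  map_smul' r χ := by
    rw [RingHom.id_apply, ← Submodule.Quotient.mk_smul]
    congr 1
    exact funext fun γ => by by_cases h : γ ∈ G <;> simp [h]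

theorem exists_pow_mem_gamma (N : ℕ) (hN : N ≠ 0) :
    ∃ n : ℕ, 0 < n ∧ ∀ γ : SL(2, ℤ), γ ^ n ∈ Gamma N := by
  haveI : NeZero N := ⟨hN⟩
  haveI : Fintype SL(2, ZMod N) := Fintype.ofFinite _
  exact ⟨Fintype.card SL(2, ZMod N), Fintype.card_pos, fun γ =>
    (MonoidHom.mem_ker).mpr (by rw [map_pow, pow_card_eq_one])⟩

theorem emb_injective [CharZero K] (G : Subgroup SL(2, ℤ)) :
    Function.Injective (emb (K := K) G) := by
  intro χ χ' h
  obtain ⟨N, hN, h⟩ := exists_of_germ_eq h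
  obtain ⟨n, hn, hpow⟩ := exists_pow_mem_gamma N hN
  refine AddMonoidHom.ext fun x => ?_
  obtain ⟨⟨γ, hγ⟩, rfl⟩ := Additive.ofMul.surjective x
  have h1 := h (γ ^ n) (hpow γ)
  rw [dif_pos (pow_mem hγ n), dif_pos (pow_mem hγ n),
    show (⟨γ ^ n, pow_mem hγ n⟩ : G) = ⟨γ, hγ⟩ ^ n from rfl, ofMul_pow, map_nsmul, map_nsmul] at h1
  exact smul_right_injective K hn.ne' h1

theorem emb_apply_congr {G G' : Subgroup SL(2, ℤ)} {χ : Additive G →+ K} {χ' : Additive G' →+ K}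
    {N : ℕ} (hN : N ≠ 0) (hG : Gamma N ≤ G) (hG' : Gamma N ≤ G')
    (h : ∀ γ (hγ : γ ∈ Gamma N), χ (Additive.ofMul ⟨γ, hG hγ⟩) = χ' (Additive.ofMul ⟨γ, hG' hγ⟩)) :
    emb (K := K) G χ = emb (K := K) G' χ' :=
  germ_eq hN fun γ hγ => by rw [dif_pos (hG hγ), dif_pos (hG' hγ), h γ hγ]

/-- The transfer is the sum of the conjugates. -/
theorem emb_transfer {G : Subgroup SL(2, ℤ)} {M : ℕ} (hM : M ≠ 0) (hG : Gamma M ≤ G) {ι : Type}
    [Fintype ι] {β : ι → IMat} (h : IsReps G β) (χ : Additive G →+ K) :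
    emb (K := K) G (h.transfer χ) = ∑ i, sl (K := K) (β i) (emb (K := K) G χ) := by
  classical
  set P := M * ∏ i, (β i).det.natAbs
  have hP : P ≠ 0 := mul_ne_zero hM
    (Finset.prod_ne_zero_iff.mpr fun i _ => Int.natAbs_ne_zero.mpr (h.det_ne_zero i))
  have e : ∀ i, sl (K := K) (β i) (emb (K := K) G χ) = germ fun γ =>
      if h' : cj (β i) γ ∈ G then χ (Additive.ofMul ⟨_, h'⟩) else 0 := fun i =>
    sl_germ (h.det_ne_zero i) _
  simp only [e]
  show germ _ = ∑ i, (germNull K).mkQ _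
  rw [← map_sum, Submodule.mkQ_apply]
  refine germ_eq hP fun γ hγ => ?_
  have hγG : γ ∈ G := hG (gamma_le_gamma (dvd_mul_right M _) hγ)
  rw [dif_pos hγG, IsReps.transfer_apply, Finset.sum_apply]
  refine Finset.sum_congr rfl fun i _ => ?_
  obtain ⟨δ, hδ, e⟩ := exists_conj_gamma M (h.det_ne_zero i) (gamma_le_gamma
    (mul_dvd_mul_left M (Finset.dvd_prod_of_mem (fun i => (β i).det.natAbs) (Finset.mem_univ i))) hγ)
  rw [cj_eq (h.det_ne_zero i) e, dif_pos (hG hδ)]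
  congr 2
  exact ((h.unique (γ := ⟨γ, hγG⟩) (g := ⟨δ, hG hδ⟩) (j := i) e.symm).2)

/-- An element of a group fixes the germs of its homomorphisms. -/
theorem sl_emb_self [CharZero K] {G : Subgroup SL(2, ℤ)} {M : ℕ} (hM : M ≠ 0) (hG : Gamma M ≤ G)
    {δ : SL(2, ℤ)} (hδ : δ ∈ G) (χ : Additive G →+ K) : sl (K := K) (δ : IMat) (emb (K := K) G χ) = emb (K := K) G χ := by
  have hd : (δ : IMat).det ≠ 0 := by rw [δ.det_coe]; exact one_ne_zero
  show sl (K := K) (δ : IMat) (germ _) = germ _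
  rw [sl_germ hd]
  refine germ_eq hM fun γ hγ => ?_
  have hγG := hG hγ
  rw [cj_eq (δ := δ * γ * δ⁻¹) hd (by
    rw [← Matrix.SpecialLinearGroup.coe_mul, ← Matrix.SpecialLinearGroup.coe_mul]; simp [mul_assoc]),
    dif_pos (mul_mem (mul_mem hδ hγG) (inv_mem hδ)), dif_pos hγG,
    show (⟨δ * γ * δ⁻¹, mul_mem (mul_mem hδ hγG) (inv_mem hδ)⟩ : G) =
      ⟨δ, hδ⟩ * ⟨γ, hγG⟩ * ⟨δ, hδ⟩⁻¹ from rfl, ofMul_mul, ofMul_mul, ofMul_inv, map_add, map_add,
    map_neg, add_right_comm, add_neg_cancel, zero_add]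

/-- Restriction of a parabolic homomorphism. -/
def resPar {G G' : Subgroup SL(2, ℤ)} (h : G' ≤ G) (χ : ParG G K) : ParG G' K :=
  ⟨(χ : Additive G →+ K).comp (MonoidHom.toAdditive (Subgroup.inclusion h)),
    fun γ hγ => χ.2 (Subgroup.inclusion h γ) hγ⟩

theorem emb_resPar {G G' : Subgroup SL(2, ℤ)} (h : G' ≤ G) {N : ℕ} (hN : N ≠ 0)
    (hG' : Gamma N ≤ G') (χ : ParG G K) :
    emb (K := K) G' (resPar h χ : Additive G' →+ K) = emb (K := K) G (χ : Additive G →+ K) :=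
  emb_apply_congr hN hG' (hG'.trans h) fun _ _ => rfl

/-- Germs of parabolic homomorphisms. -/
def parGerm (K : Type) [Field K] : Submodule K (Germ K) where
  carrier := {F | ∃ N : ℕ, N ≠ 0 ∧ ∃ χ : ParG (Gamma N) K,
    emb (K := K) (Gamma N) (χ : Additive (Gamma N) →+ K) = F}
  zero_mem' := ⟨1, one_ne_zero, 0, map_zero _⟩
  add_mem' := by
    rintro _ _ ⟨N, hN, χ, rfl⟩ ⟨N', hN', χ', rfl⟩
    refine ⟨N * N', mul_ne_zero hN hN',
      resPar (gamma_le_gamma (dvd_mul_right N N')) χ + resPar (gamma_le_gamma (dvd_mul_left N' N)) χ',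
      ?_⟩
    rw [AddMemClass.coe_add, map_add, emb_resPar _ (mul_ne_zero hN hN') le_rfl,
      emb_resPar _ (mul_ne_zero hN hN') le_rfl]
  smul_mem' := by
    rintro r _ ⟨N, hN, χ, rfl⟩
    exact ⟨N, hN, ⟨r • (χ : Additive (Gamma N) →+ K), fun γ hγ => by
      rw [AddMonoidHom.smul_apply, χ.2 γ hγ, smul_zero]⟩, map_smul _ _ _⟩

theorem emb_mem_parGerm {G : Subgroup SL(2, ℤ)} {M : ℕ} (hM : M ≠ 0) (hG : Gamma M ≤ G)
    (χ : ParG G K) : emb (K := K) G (χ : Additive G →+ K) ∈ parGerm K :=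
  ⟨M, hM, resPar hG χ, emb_resPar hG hM le_rfl χ⟩

theorem sl_mem_parGerm (g : IMat) {F : Germ K} (hF : F ∈ parGerm K) : sl (K := K) g F ∈ parGerm K := by
  classical
  obtain ⟨N, hN, χ, rfl⟩ := hF
  by_cases hg : g.det = 0
  · convert zero_mem (parGerm K)
    show germ (slFun g _) = germ 0
    congr 1
    exact funext fun γ => if_pos hg
  set N' := N * g.det.natAbs
  have hN' : N' ≠ 0 := mul_ne_zero hN (Int.natAbs_ne_zero.mpr hg)
  have hc : ∀ γ : Gamma N', ∃ δ : Gamma N,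
      ((δ : SL(2, ℤ)) : IMat) * g = g * ((γ : SL(2, ℤ)) : IMat) := fun γ => by
    obtain ⟨δ, hδ, e⟩ := exists_conj_gamma N hg γ.2
    exact ⟨⟨δ, hδ⟩, e⟩
  choose D hD using hc
  have hmul : ∀ a b, D (a * b) = D a * D b := fun a b => by
    refine Subtype.ext (Subtype.ext (eq_of_mul_eq hg ?_))
    rw [hD, Subgroup.coe_mul, Subgroup.coe_mul, Matrix.SpecialLinearGroup.coe_mul,
      Matrix.SpecialLinearGroup.coe_mul, mul_assoc, hD b, ← mul_assoc, ← mul_assoc, hD a]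
  have htr : ∀ a, ((D a : SL(2, ℤ)) : IMat).trace = ((a : SL(2, ℤ)) : IMat).trace := fun a => by
    have h2 := congrArg (fun X => (g.adjugate * X).trace) (hD a)
    simp only [← Matrix.mul_assoc, Matrix.adjugate_mul, Matrix.smul_mul, Matrix.one_mul,
      Matrix.trace_smul] at h2
    rw [Matrix.trace_mul_comm, ← Matrix.mul_assoc, Matrix.mul_adjugate, Matrix.smul_mul,
      Matrix.one_mul, Matrix.trace_smul] at h2
    exact mul_left_cancel₀ hg h2
  let χ' : ParG (Gamma N') K :=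
    ⟨(χ : Additive (Gamma N) →+ K).comp (MonoidHom.toAdditive (MonoidHom.mk' D hmul)),
      fun γ hγ => χ.2 (D γ) (by rw [htr]; exact hγ)⟩
  refine ⟨N', hN', χ', ?_⟩
  show germ _ = sl (K := K) g (germ _)
  rw [sl_germ hg]
  refine germ_eq hN' fun γ hγ => ?_
  rw [dif_pos hγ, cj_eq hg (hD ⟨γ, hγ⟩), dif_pos (D ⟨γ, hγ⟩).2]
  rfl

set_option maxHeartbeats 1600000 in
/-- An invariant germ of a parabolic homomorphism comes from `Γ₀(L)`. -/
theorem exists_descend [CharZero K] (L : ℕ) [NeZero L] {F : Germ K} (hF : F ∈ parGerm K)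
    (hinv : ∀ δ ∈ Gamma0 L, sl (K := K) (δ : IMat) F = F) :
    ∃ χ : ParG (Gamma0 L) K, emb (K := K) (Gamma0 L) (χ : Additive (Gamma0 L) →+ K) = F := by
  classical
  obtain ⟨N₀, hN₀, χ₀, rfl⟩ := hF
  set N := N₀ * L
  have hN : N ≠ 0 := mul_ne_zero hN₀ (NeZero.ne L)
  haveI : NeZero N := ⟨hN⟩
  have hle : Gamma N ≤ Gamma0 L := (gamma_le_gamma (dvd_mul_left L N₀)).trans
    ((DS.gamma_le_gamma1 L).trans (DS.gamma1_le_gamma0 L))
  obtain ⟨χ, heq⟩ : ∃ χ : ParG (Gamma N) K, emb (K := K) (Gamma N) (χ : Additive (Gamma N) →+ K) =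
      emb (K := K) (Gamma N₀) (χ₀ : Additive (Gamma N₀) →+ K) := ⟨_, emb_resPar (gamma_le_gamma (dvd_mul_right N₀ L)) hN le_rfl χ₀⟩
  clear_value N
  rw [← heq] at hinv ⊢
  haveI : (Gamma N).FiniteIndex := inferInstance
  let H : Subgroup (Gamma0 L) := (Gamma N).subgroupOf (Gamma0 L)
  haveI : Finite (Gamma0 L ⧸ H) := inferInstance
  haveI : Fintype (Gamma0 L ⧸ H) := Fintype.ofFinite _
  have hnorm : ∀ (δ : SL(2, ℤ)) {γ : SL(2, ℤ)}, γ ∈ Gamma N → δ⁻¹ * γ * δ ∈ Gamma N := fun δ γ hγ => by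
    simpa using (Gamma_normal N).conj_mem γ hγ δ⁻¹
  -- invariance, exactly
  have hχ : ∀ δ ∈ Gamma0 L, ∀ γ (hγ : γ ∈ Gamma N),
      (χ : Additive (Gamma N) →+ K) (Additive.ofMul ⟨δ⁻¹ * γ * δ, hnorm δ hγ⟩) =
        (χ : Additive (Gamma N) →+ K) (Additive.ofMul ⟨γ, hγ⟩) := by
    intro δ hδ γ hγ
    let φ : Gamma N →* Gamma N := MonoidHom.mk' (fun x => ⟨δ⁻¹ * x * δ, hnorm δ x.2⟩) fun a b =>
      Subtype.ext (by simp only [Subgroup.coe_mul]; group)
    have : emb (K := K) (Gamma N) ((χ : Additive (Gamma N) →+ K).comp (MonoidHom.toAdditive φ)) =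
        emb (K := K) (Gamma N) (χ : Additive (Gamma N) →+ K) := by
      conv_rhs => rw [← hinv δ⁻¹ (inv_mem hδ)]
      show germ _ = sl (K := K) _ (germ _)
      rw [sl_germ (by rw [(δ⁻¹).det_coe]; exact one_ne_zero)]
      refine germ_eq hN fun x hx => ?_
      rw [dif_pos hx, cj_eq (δ := δ⁻¹ * x * δ) (by rw [(δ⁻¹).det_coe]; exact one_ne_zero) (by
        rw [← Matrix.SpecialLinearGroup.coe_mul, ← Matrix.SpecialLinearGroup.coe_mul];
        simp [mul_assoc]), dif_pos (hnorm δ hx)]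
      rfl
    have h2 := DFunLike.congr_fun (emb_injective (Gamma N) this) (Additive.ofMul (⟨γ, hγ⟩ : Gamma N))
    simpa only [AddMonoidHom.comp_apply, MonoidHom.toAdditive_apply_apply, toMul_ofMul,
      MonoidHom.mk'_apply, φ] using! h2
  have hc : ∀ (γ : Gamma0 L) (x : Gamma0 L ⧸ H), ((γ • x).out⁻¹ * γ * x.out : Gamma0 L) ∈ H :=
    fun γ x => by
      rw [mul_assoc, ← QuotientGroup.eq]
      rw [QuotientGroup.out_eq']
      conv_lhs => rw [← QuotientGroup.out_eq' x]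
      rfl
  let co : Gamma0 L → Gamma0 L ⧸ H → Gamma N := fun γ x =>
    ⟨((γ • x).out⁻¹ * γ * x.out : Gamma0 L), hc γ x⟩
  have hco : ∀ a b x, co (a * b) x = co a (b • x) * co b x := fun a b x => Subtype.ext (by
    simp only [co, mul_smul, Subgroup.coe_mul, Subgroup.coe_inv]; group)
  let ν : K := ((Fintype.card (Gamma0 L ⧸ H) : ℕ) : K)⁻¹
  let ψ : Additive (Gamma0 L) →+ K := AddMonoidHom.mk'
    (fun γ => ν * ∑ x, (χ : Additive (Gamma N) →+ K) (Additive.ofMul (co γ.toMul x))) fun a b => by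
      simp only [toMul_add, hco, ofMul_mul, map_add, Finset.sum_add_distrib, mul_add]
      congr 2
      exact Equiv.sum_comp (MulAction.toPerm b.toMul : Equiv.Perm (Gamma0 L ⧸ H))
        fun x => (χ : Additive (Gamma N) →+ K) (Additive.ofMul (co a.toMul x))
  have hψ : ∀ γ (hγ : γ ∈ Gamma N), ψ (Additive.ofMul ⟨γ, hle hγ⟩) =
      (χ : Additive (Gamma N) →+ K) (Additive.ofMul ⟨γ, hγ⟩) := fun γ hγ => by
    have hfix : ∀ x : Gamma0 L ⧸ H, (⟨γ, hle hγ⟩ : Gamma0 L) • x = x := fun x => by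
      induction x using QuotientGroup.induction_on with
      | H y =>
        refine QuotientGroup.eq.mpr (Subgroup.mem_subgroupOf.mpr ?_)
        simp only [smul_eq_mul, mul_inv_rev, Subgroup.coe_mul, Subgroup.coe_inv]
        exact hnorm (y : SL(2, ℤ)) (inv_mem hγ)
    show ν * _ = _
    rw [Finset.sum_congr rfl fun x _ => ?_, Finset.sum_const, Finset.card_univ, nsmul_eq_mul,
      ← mul_assoc, inv_mul_cancel₀ (Nat.cast_ne_zero.mpr Fintype.card_ne_zero), one_mul]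
    refine Eq.trans ?_ (hχ (x.out : SL(2, ℤ)) x.out.2 γ hγ)
    congr 2
    exact Subtype.ext (by simp only [co, toMul_ofMul, hfix, Subgroup.coe_mul, Subgroup.coe_inv])
  refine ⟨⟨ψ, fun γ hγ => ?_⟩, emb_apply_congr hN hle le_rfl hψ⟩
  obtain ⟨n, hn, hpow⟩ := exists_pow_mem_gamma N hN
  refine smul_right_injective K hn.ne' ?_
  show n • ψ (Additive.ofMul γ) = n • 0
  rw [smul_zero, ← map_nsmul, ← ofMul_pow,
    show γ ^ n = ⟨((γ : SL(2, ℤ)) ^ n), hle (hpow _)⟩ from rfl, hψ _ (hpow _)]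
  exact χ.2 _ (by
    show ((((γ : SL(2, ℤ)) ^ n : SL(2, ℤ))) : IMat).trace ^ 2 = 4
    rw [Matrix.SpecialLinearGroup.coe_pow]
    exact trace_pow_sq_eq_four _ (γ : SL(2, ℤ)).det_coe hγ n)

end Fermat.Agent.Auto.Tw
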