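import Fermat.Agent.Auto.Twist.Level

/-!
A relation among the Hecke sums on invariant germs holds after twisting by a character of odd
order and squarefree modulus.
-/

set_option autoImplicit false
set_option linter.unusedSectionVars false

noncomputable section

namespace Fermat.Agent.Auto.Tw

open CongruenceSubgroup
open Fermat.Agent.GalRep (IMat)
open scoped MatrixGroups

variable {K : Type} [Field K] [CharZero K] {ι : Type} (ell : ι → ℕ)

/-- The operators with weights, over `ℤ`. -/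
def opZ (a b : ι → K) (i : ι) : Module.End ℤ (Germ K) :=
  (opS (a i) (b i) (ell i)).toAddMonoidHom.toIntLinearMap

theorem opZ_apply (a b : ι → K) (i : ι) (F : Germ K) :
    opZ ell a b i F = opS (a i) (b i) (ell i) F := rfl

/-- Polynomials in the operators. -/
def ev (a b : ι → K) : FreeAlgebra ℤ ι →ₐ[ℤ] Module.End ℤ (Germ K) :=
  FreeAlgebra.lift ℤ (opZ ell a b)

variable {D : ℕ}

/-- The nebentypus `η⁻²`. -/
def psiOf (η : MulChar (ZMod D) K) (x : ℤ) : K := ((η (x : ZMod D)) ^ 2)⁻¹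

theorem psiOf_one (η : MulChar (ZMod D) K) : psiOf η 1 = 1 := by simp [psiOf]

theorem psiOf_congr (η : MulChar (ZMod D) K) {N : ℕ} (hN : D ∣ N) {x y : ℤ}
    (h : (x : ZMod N) = y) : psiOf η x = psiOf η y := by
  have e : (x : ZMod D) = (y : ZMod D) := by
    rw [ZMod.intCast_eq_intCast_iff_dvd_sub] at h ⊢
    exact (Int.natCast_dvd_natCast.mpr hN).trans h
  rw [psiOf, psiOf, e]

theorem isUnit_intCast_of_isCoprime {N : ℕ} {x : ℤ} {L : ℕ} (hN : N ∣ L)
    (hx : IsCoprime x (L : ℤ)) : IsUnit (x : ZMod N) := by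
  obtain ⟨a, b, h⟩ := hx
  obtain ⟨c, hc⟩ := hN
  have h' := congrArg (fun z : ℤ => (z : ZMod N)) h
  simp [hc] at h'
  exact IsUnit.of_mul_eq_one_right _ h'

/-- Weights. -/
def wA (η : MulChar (ZMod D) K) (i : ι) : K := η ((ell i : ℤ) : ZMod D)

/-- Nebentypus values. -/
def wB (η : MulChar (ZMod D) K) (i : ι) : K := psiOf η (ell i : ℤ)

variable {L : ℕ} [NeZero L]

/-- The statement at a given character. -/
def Kills (W : FreeAlgebra ℤ ι) (η : MulChar (ZMod D) K) : Prop :=
  ∀ F ∈ lv L (psiOf η), ev ell (wA ell η) (wB ell η) W F = 0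

variable {ell} (hell : ∀ i, (ell i).Prime) (hellL : ∀ i, ¬ ell i ∣ L)

include hell hellL in
theorem ev_mem_lv (W : FreeAlgebra ℤ ι) (η : MulChar (ZMod D) K) (hD : D ∣ L) {F : Germ K}
    (hF : F ∈ lv L (psiOf η)) : ev ell (wA ell η) (wB ell η) W F ∈ lv L (psiOf η) :=
  (intertwine (opZ ell (wA ell η) (wB ell η)) (opZ ell (wA ell η) (wB ell η)) (AddMonoidHom.id _)
    (· ∈ lv L (psiOf η))
    (fun i G hG => opS_mem_lv (psiOf_one η) (fun _ _ h => psiOf_congr η hD h) (hell i) (hellL i) hG _)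
    (fun _ _ => add_mem) (fun n _ h => zsmul_mem h n) (fun _ _ _ => rfl) W F hF).1

include hell hellL in
theorem kills_step {q D'' : ℕ} [Fact q.Prime] [NeZero D''] (hcop : q.Coprime D'')
    (hdvd : q * D'' ∣ L / q) (hq2 : q ^ 2 ∣ L) (W : FreeAlgebra ℤ ι)
    (η : MulChar (ZMod (q * D'')) K) (m : ℕ) (hm : Odd m) (hη : η ^ m = 1)
    (IH : ∀ η'' : MulChar (ZMod D'') K, η'' ^ m = 1 → Kills (L := L) ell W η'') :
    Kills (L := L) ell W η := by
  classical
  have hq : q.Prime := Fact.out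
  haveI : NeZero q := ⟨hq.ne_zero⟩
  have hqL : q ∣ L := (dvd_pow_self q two_ne_zero).trans hq2
  have hDL : q * D'' ∣ L := hdvd.trans (Nat.div_dvd_of_dvd hqL)
  have hD''L : D'' ∣ L := (dvd_mul_left D'' q).trans hDL
  let crt := ZMod.chineseRemainder hcop
  let ηq : MulChar (ZMod q) K :=
    { toFun := fun x => η (crt.symm (x, 1))
      map_one' := by rw [show ((1 : ZMod q), (1 : ZMod D'')) = 1 from rfl, map_one, map_one]
      map_mul' := fun x y => by
        rw [show ((x * y, 1) : ZMod q × ZMod D'') = (x, 1) * (y, 1) by rw [Prod.mk_mul_mk, one_mul],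
          map_mul, map_mul]
      map_nonunit' := fun x hx => η.map_nonunit fun h => hx (by
        simpa using (h.map crt).map (RingHom.fst (ZMod q) (ZMod D''))) }
  let η' : MulChar (ZMod D'') K :=
    { toFun := fun x => η (crt.symm (1, x))
      map_one' := by rw [show ((1 : ZMod q), (1 : ZMod D'')) = 1 from rfl, map_one, map_one]
      map_mul' := fun x y => by
        rw [show ((1, x * y) : ZMod q × ZMod D'') = (1, x) * (1, y) by rw [Prod.mk_mul_mk, one_mul],
          map_mul, map_mul]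
      map_nonunit' := fun x hx => η.map_nonunit fun h => hx (by
        simpa using (h.map crt).map (RingHom.snd (ZMod q) (ZMod D''))) }
  have hsplit : ∀ n : ℤ, η (n : ZMod (q * D'')) = ηq (n : ZMod q) * η' (n : ZMod D'') := fun n => by
    show _ = η (crt.symm ((n : ZMod q), 1)) * η (crt.symm (1, (n : ZMod D'')))
    rw [← map_mul, ← map_mul, Prod.mk_mul_mk, mul_one, one_mul]
    congr 1
    rw [RingEquiv.eq_symm_apply]
    exact Prod.ext (by simp) (by simp)
  have hηq : ηq ^ m = 1 := MulChar.ext fun u => by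
    rw [MulChar.pow_apply_coe, MulChar.one_apply_coe]
    show η _ ^ m = 1
    have hu : IsUnit (crt.symm ((u : ZMod q), (1 : ZMod D''))) :=
      (Prod.isUnit_iff.mpr ⟨u.isUnit, isUnit_one⟩).map crt.symm
    rw [← MulChar.pow_apply' η (Nat.pos_of_ne_zero (fun h => by simp [h] at hm)).ne', hη,
      MulChar.one_apply hu]
  have hη' : η' ^ m = 1 := MulChar.ext fun u => by
    rw [MulChar.pow_apply_coe, MulChar.one_apply_coe]
    show η _ ^ m = 1
    have hu : IsUnit (crt.symm ((1 : ZMod q), (u : ZMod D''))) :=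
      (Prod.isUnit_iff.mpr ⟨isUnit_one, u.isUnit⟩).map crt.symm
    rw [← MulChar.pow_apply' η (Nat.pos_of_ne_zero (fun h => by simp [h] at hm)).ne', hη,
      MulChar.one_apply hu]
  have hℓL : ∀ i, IsCoprime (ell i : ℤ) (L : ℤ) := fun i =>
    Int.isCoprime_iff_gcd_eq_one.mpr ((hell i).coprime_iff_not_dvd.2 (hellL i))
  intro F hF
  by_cases hone : ηq = 1
  · have hval : ∀ x : ℤ, IsCoprime x (L : ℤ) → η (x : ZMod (q * D'')) = η' (x : ZMod D'') := fun x hx => by
      rw [hsplit, hone, MulChar.one_apply (isUnit_intCast_of_isCoprime hqL hx), one_mul]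
    have hpsi : ∀ x : ℤ, IsCoprime x (L : ℤ) → psiOf η x = psiOf η' x := fun x hx => by
      rw [psiOf, psiOf, hval x hx]
    rw [show wA ell η = wA ell η' from funext fun i => hval _ (hℓL i),
      show wB ell η = wB ell η' from funext fun i => hpsi _ (hℓL i)]
    refine IH η' hη' F ?_
    rwa [← lv_congr fun δ hδ => hpsi _ ?_]
    obtain ⟨c, hc⟩ := Newform.mem_Gamma0_iff_dvd.mp hδ
    have hdet := δ.det_coe
    rw [Matrix.det_fin_two, hc] at hdet
    exact ⟨(δ : IMat) 0 0, -(δ : IMat) 0 1 * c, by linear_combination hdet⟩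
  have hψLq : ∀ x y : ℤ, (x : ZMod (L / q)) = y → psiOf η x = psiOf η y :=
    fun _ _ h => psiOf_congr η hdvd h
  have hψL : ∀ x y : ℤ, (x : ZMod L) = y → psiOf η x = psiOf η y :=
    fun _ _ h => psiOf_congr η hDL h
  have hqu : ∀ x : ℤ, IsCoprime x (L : ℤ) → ηq (x : ZMod q) ≠ 0 := fun x hx =>
    ((isUnit_intCast_of_isCoprime hqL hx).map ηq).ne_zero
  have h1 := psiOf_one η
  have hqK : (q : K) ≠ 0 := Nat.cast_ne_zero.mpr hq.ne_zero
  set o := opZ ell (wA ell η) (wB ell η)
  let E := ev ell (wA ell η) (wB ell η) W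
  have hmem := fun {F : Germ K} (hF : F ∈ lv L (psiOf η)) =>
    ev_mem_lv hell hellL W η hDL hF
  -- the twist
  have htw : ∀ F ∈ lv L (psiOf η), tw q (fun u => ηq⁻¹ u) (E F) = 0 := by
    intro F hF
    have hint := (intertwine o (opZ ell (wA ell η') (wB ell η'))
      (tw q fun u => ηq⁻¹ u).toAddMonoidHom (· ∈ lv L (psiOf η))
      (fun i G hG => opS_mem_lv h1 hψL (hell i) (hellL i) hG _) (fun _ _ => add_mem)
      (fun n _ h => zsmul_mem h n) (fun i G hG => ?_) W F hF).2
    · refine hint.trans (IH η' hη' _ ?_)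
      refine tw_mem_lv hq2 h1 hψLq _ (fun d hd u => ?_) hF
      simp only [psiOf, hsplit d, map_mul, map_pow, MulChar.inv_apply_eq_inv']
      have := hqu d hd
      field_simp
    · show tw q (fun u => ηq⁻¹ u) (opS (K := K) _ _ _ G) = opS (K := K) _ _ _ _
      have hu := isUnit_intCast_of_isCoprime hqL (hℓL i)
      have hne := hqu _ (hℓL i)
      rw [tw_opS (hell i).ne_zero (by simpa using hu) (lv_periodic h1 hG)
        (e := ηq⁻¹ ((ell i : ℤ) : ZMod q)) (by
          rw [MulChar.inv_apply_eq_inv']; exact inv_ne_zero hne)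
        (fun u => by rw [map_mul, Int.cast_natCast])]
      simp only [wA, wB, psiOf, hsplit, MulChar.inv_apply_eq_inv']
      congr 1 <;> field_simp
  -- the shrinking
  let Θ : Germ K →ₗ[K] Germ K := (q : K)⁻¹ • (sl (K := K) (bM q 0)).comp (avg (K := K) q)
  have hΘmem : ∀ G ∈ lv L (psiOf η), Θ G ∈ lv L (psiOf η) := fun G hG =>
    Submodule.smul_mem _ _ (shrink_mem_lv hqL hψL
      (tw_mem_lv hq2 h1 hψLq _ (fun d _ u => by rw [one_mul, mul_one]) hG)
      (avg_fixed (lv_periodic h1 hG)))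
  have hΘE : ∀ G ∈ lv L (psiOf η), Θ (E G) = E (Θ G) := fun G hG =>
    (intertwine o o Θ.toAddMonoidHom (· ∈ lv L (psiOf η))
      (fun i G hG => opS_mem_lv h1 hψL (hell i) (hellL i) hG _) (fun _ _ => add_mem)
      (fun n _ h => zsmul_mem h n) (fun i G hG => by
        have hper := lv_periodic h1 hG
        have hℓq : IsUnit (ell i : ZMod q) := by
          simpa using isUnit_intCast_of_isCoprime hqL (hℓL i)
        have hqℓ : IsUnit (q : ZMod (ell i)) :=
          (ZMod.isUnit_iff_coprime _ _).2 (Nat.Coprime.coprime_dvd_left hqL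
            ((hell i).coprime_iff_not_dvd.2 (hellL i)).symm)
        show (q : K)⁻¹ • sl (K := K) (bM q 0)
            (avg (K := K) q (opS (wA ell η i) (wB ell η i) (ell i) G)) =
          opS (wA ell η i) (wB ell η i) (ell i)
            ((q : K)⁻¹ • sl (K := K) (bM q 0) (avg (K := K) q G))
        rw [tw_opS (hell i).ne_zero hℓq hper one_ne_zero (fun u => (one_mul _).symm), inv_one,
          mul_one, mul_one, mul_one, shrink_opS (hell i).ne_zero hqℓ (avg_fixed hper), map_smul])
      W G hG).2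
  let Fn : ℕ → Germ K := fun n => Θ^[n] F
  have hFn : ∀ n, Fn n ∈ lv L (psiOf η) := fun n => by
    induction n with
    | zero => exact hF
    | succ n ih => simp only [Fn, Function.iterate_succ_apply']; exact hΘmem _ ih
  let G : ℕ → Germ K := fun n => E (Fn n)
  have hGm : ∀ n, G n ∈ lv L (psiOf η) := fun n => hmem (hFn n)
  have havg : ∀ n, (q : K) • G n = avg (K := K) q (G n) := fun n =>
    eq_avg_of_tw_eq_zero (inv_ne_one.mpr hone) (lv_periodic h1 (hGm n)) (htw _ (hFn n))
  have hfix : ∀ n x, sl (K := K) (alM q x) (G n) = G n := fun n x => by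
    refine smul_right_injective _ hqK ?_
    show (q : K) • _ = (q : K) • _
    rw [← map_smul, havg, avg_fixed (lv_periodic h1 (hGm n))]
  have hrec : ∀ n, G n = sl (K := K) (dM q) (G (n + 1)) := fun n => by
    have e : G (n + 1) = sl (K := K) (bM q 0) (G n) := by
      show E (Θ^[n + 1] F) = _
      rw [Function.iterate_succ_apply', ← hΘE _ (hFn n)]
      show (q : K)⁻¹ • sl (K := K) (bM q 0) (avg (K := K) q (G n)) = _
      rw [← havg, map_smul, smul_smul, inv_mul_cancel₀ hqK, one_smul]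
    rw [e, sl_mul (det_bM hq.ne_zero _) (det_dM hq.ne_zero),
      show bM q 0 * dM q = (q : ℤ) • (1 : IMat) by
        ext i j; fin_cases i <;> fin_cases j <;> simp [bM, dM, Matrix.mul_apply, Fin.sum_univ_two],
      sl_scalar (Int.natCast_ne_zero.mpr hq.ne_zero)]
  have hhigh : ∀ (k n : ℕ) (s : ℤ), sl (K := K) (alM (q ^ (k + 1)) s) (G n) = G n := by
    intro k
    induction k with
    | zero => intro n s; rw [zero_add, pow_one]; exact hfix n s
    | succ k ih =>
      intro n s
      have hQ : q ^ (k + 1) ≠ 0 := pow_ne_zero _ hq.ne_zero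
      conv_rhs => rw [hrec n, ← ih (n + 1) s,
        sl_mul (det_alM hQ _) (det_dM hq.ne_zero),
        ← sl_smul (Int.natCast_ne_zero.mpr hq.ne_zero)
          (by rw [Matrix.det_mul]; exact mul_ne_zero (det_alM hQ _) (det_dM hq.ne_zero))]
      conv_lhs => rw [hrec n, sl_mul (det_dM hq.ne_zero) (det_alM (pow_ne_zero _ hq.ne_zero) _)]
      congr 2
      ext i j; fin_cases i <;> fin_cases j <;>
        simp [alM, dM, Matrix.mul_apply, Fin.sum_univ_two] <;> (try ring_nf) <;> simp
  -- the element of nontrivial nebentypus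
  obtain ⟨e, L', hnd, hL'⟩ := Nat.exists_eq_pow_mul_and_not_dvd (NeZero.ne L) q hq.ne_one
  obtain ⟨k, rfl⟩ : ∃ k, e = k + 1 := Nat.exists_eq_succ_of_ne_zero (by
    rintro rfl; rw [pow_zero, one_mul] at hL'; exact hnd (hL' ▸ hqL))
  set Q := q ^ (k + 1) with hQdef
  have hQ : Q ≠ 0 := pow_ne_zero _ hq.ne_zero
  haveI : NeZero Q := ⟨hQ⟩
  have hsq : ηq ^ 2 ≠ 1 := by
    intro h
    obtain ⟨r, rfl⟩ := hm
    rw [pow_succ, pow_mul, h, one_pow, one_mul] at hηq
    exact hone hηq
  obtain ⟨u, hu⟩ : ∃ u : (ZMod q)ˣ, ηq (u : ZMod q) ^ 2 ≠ 1 := by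
    by_contra hcon
    push Not at hcon
    exact hsq (MulChar.ext fun u => by rw [MulChar.pow_apply_coe, MulChar.one_apply_coe, hcon])
  have hL'q : (L' : ZMod q) ≠ 0 := fun h => hnd ((ZMod.natCast_eq_zero_iff _ _).mp h)
  set s : ℤ := ((((u : ZMod q) - 1) / (L' : ZMod q)).val : ℤ)
  set d : ℤ := 1 + L' * s with hd_def
  have hdq : (d : ZMod q) = u := by
    simp only [hd_def, s, Int.cast_add, Int.cast_one, Int.cast_mul, Int.cast_natCast,
      ZMod.natCast_zmod_val]
    field_simp
    ring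
  have hdQ : IsUnit (d : ZMod Q) := by
    have h1 : IsCoprime d (q : ℤ) := by
      rw [Int.isCoprime_iff_gcd_eq_one]
      show Nat.Coprime d.natAbs q
      refine (Nat.Coprime.symm (hq.coprime_iff_not_dvd.2 fun h => u.ne_zero ?_))
      rw [← hdq, ZMod.intCast_zmod_eq_zero_iff_dvd]
      exact Int.natCast_dvd.mpr h
    have h2 : IsCoprime d (Q : ℤ) := by rw [hQdef, Nat.cast_pow]; exact h1.pow_right
    exact isUnit_intCast_of_isCoprime dvd_rfl h2
  obtain ⟨di, hdi⟩ := hdQ.exists_right_inv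
  set s' : ℤ := ((-(s : ZMod Q) * di).val : ℤ)
  obtain ⟨b, hb⟩ : (Q : ℤ) ∣ s + s' + L' * s * s' := by
    rw [← ZMod.intCast_zmod_eq_zero_iff_dvd]
    simp only [s', Int.cast_add, Int.cast_mul, Int.cast_natCast, ZMod.natCast_zmod_val]
    have h := hdi
    simp only [hd_def, Int.cast_add, Int.cast_one, Int.cast_mul, Int.cast_natCast] at h
    linear_combination (-(s : ZMod Q)) * h
  let δ : SL(2, ℤ) := ⟨!![1 + s' * L', b; (L : ℤ), d], by
    rw [Matrix.det_fin_two_of, hL', hd_def]
    push_cast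
    linear_combination (L' : ℤ) * hb⟩
  let Λ : SL(2, ℤ) := ⟨!![1, 0; (L : ℤ), 1], by rw [Matrix.det_fin_two_of]; ring⟩
  have hδ : δ ∈ Gamma0 L := Newform.mem_Gamma0_iff_dvd.mpr (by simp [δ])
  have hΛ : Λ ∈ Gamma0 L := Newform.mem_Gamma0_iff_dvd.mpr (by simp [Λ])
  have key : sl (K := K) (δ : IMat) (G 0) = G 0 := by
    have hdet : ∀ x : SL(2, ℤ), (x : IMat).det ≠ 0 := fun x => by rw [x.det_coe]; exact one_ne_zero
    have hΛf : sl (K := K) (Λ : IMat) (G 0) = G 0 := by
      rw [(hGm 0).2 Λ hΛ, show Λ 1 1 = 1 from rfl, h1, one_smul]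
    rw [← sl_smul (c := (Q : ℤ) * Q) (mul_ne_zero (Int.natCast_ne_zero.mpr hQ)
        (Int.natCast_ne_zero.mpr hQ)) (hdet δ),
      show ((Q : ℤ) * Q) • (δ : IMat) = alM Q s' * (Λ : IMat) * alM Q s by
        have hL'' : (L : ℤ) = Q * L' := by exact_mod_cast hL'
        ext i j; fin_cases i <;> fin_cases j <;>
          simp [alM, δ, Λ, hd_def, Matrix.mul_apply, Fin.sum_univ_two]
        · linear_combination (-(Q : ℤ) * s') * hL''
        · linear_combination (-(Q : ℤ)) * hb + (-s * s') * hL''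
        · ring
        · linear_combination (-(Q : ℤ) * s) * hL'',
      ← sl_mul (by rw [Matrix.det_mul]; exact mul_ne_zero (det_alM hQ _) (hdet Λ)) (det_alM hQ _),
      ← sl_mul (det_alM hQ _) (hdet Λ), hhigh k 0 s', hΛf, hhigh k 0 s]
  rw [(hGm 0).2 δ hδ] at key
  have hψd : psiOf η (δ 1 1) ≠ 1 := by
    show psiOf η d ≠ 1
    have hη'd : η' (d : ZMod D'') = 1 := by
      have hdvd' : D'' ∣ L' :=
        ((hcop.pow_left (k + 1)).symm).dvd_of_dvd_mul_left (hL' ▸ hD''L)
      have : (d : ZMod D'') = 1 := by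
        rw [hd_def, Int.cast_add, Int.cast_mul, Int.cast_natCast,
          (ZMod.natCast_eq_zero_iff _ _).mpr hdvd', zero_mul, add_zero, Int.cast_one]
      rw [this, map_one]
    rw [psiOf, hsplit, hη'd, mul_one, hdq]
    exact fun h => hu (inv_eq_one.mp h)
  have h0 : G 0 = 0 := by
    by_contra hne
    refine hψd ?_
    have : (psiOf η (δ 1 1) - 1) • G 0 = 0 := by rw [sub_smul, one_smul, sub_eq_zero]; exact key
    exact sub_eq_zero.mp ((smul_eq_zero.mp this).resolve_right hne)
  exact h0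

include hell hellL in
/-- A relation at trivial character gives the relations at all odd characters of squarefree
modulus. -/
theorem kills_all {D₀ : ℕ} (hsq : Squarefree D₀)
    (hL : ∀ q : ℕ, q.Prime → q ∣ D₀ → q ^ 2 ∣ L ∧ D₀ ∣ L / q) (W : FreeAlgebra ℤ ι)
    (hbase : ∀ F ∈ lv L (fun _ => (1 : K)), ev ell (fun _ => (1 : K)) (fun _ => (1 : K)) W F = 0) :
    ∀ D : ℕ, D ∣ D₀ → ∀ (η : MulChar (ZMod D) K) (m : ℕ), Odd m → η ^ m = 1 →
      Kills (L := L) ell W η := by
  intro D
  induction D using Nat.strong_induction_on with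
  | _ D IH =>
    intro hD η m hm hη
    by_cases hD1 : D = 1
    · subst hD1
      intro F hF
      have e : ∀ x : ZMod 1, η x = 1 := fun x => by rw [Subsingleton.elim x 1, map_one]
      rw [show wA ell η = fun _ => (1 : K) from funext fun i => e _,
        show wB ell η = fun _ => (1 : K) from funext fun i => by simp [wB, psiOf, e]]
      refine hbase F ?_
      rwa [lv_congr (ψ := psiOf η) (ψ' := fun _ => (1 : K)) fun δ _ => by simp [psiOf, e]] at hF
    · obtain ⟨q, hq, D'', rfl⟩ := Nat.exists_prime_and_dvd hD1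
      haveI := Fact.mk hq
      obtain ⟨hq2, hdvd⟩ := hL q hq ((dvd_mul_right q D'').trans hD)
      have hsq' := Squarefree.squarefree_of_dvd hD hsq
      haveI : NeZero D'' := ⟨fun h => hsq'.ne_zero (by rw [h, mul_zero])⟩
      have hlt : D'' < q * D'' := lt_mul_of_one_lt_left (Nat.pos_of_ne_zero (NeZero.ne _)) hq.one_lt
      exact kills_step hell hellL (Nat.coprime_of_squarefree_mul hsq') (hD.trans hdvd) hq2 W η m hm hη
        fun η'' hη'' => IH D'' hlt ((dvd_mul_left D'' q).trans hD) η'' m hm hη''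

end Fermat.Agent.Auto.Tw
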