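import Fermat.Agent.Auto.Twist.Kill
import Fermat.Agent.Auto.Galois
import Fermat.Agent.NewVec.Hecke
import Mathlib.GroupTheory.FiniteAbelian.Duality
import Mathlib.RingTheory.RootsOfUnity.AlgebraicallyClosed

/-!
The lattice of `grp M c` over an algebraically closed field, cut by the characters of the diamond
operators and placed among the germs.
-/

set_option autoImplicit false
set_option linter.unusedSectionVars false

noncomputable section

namespace Fermat.Agent.Auto.Tw

open CongruenceSubgroup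
open Fermat.Agent.GalRep (IMat GoodPrime GoodPrimeOff evFormsOff heckeRep)
open Fermat.Agent.GalRep.Level (ParG IsDiamond heckeRepG)
open Fermat.Agent.DS (IsReps diaMat diaMat_mem)
open scoped MatrixGroups

variable {K : Type} [Field K] [CharZero K]

/-- Evaluation of a polynomial agrees with that of any lift. -/
theorem polyHom_eq_lift {σ E : Type} [Ring E] (f : σ → E) (hf : ∀ i j, Commute (f i) (f j))
    (W : FreeAlgebra ℤ σ) :
    GalRep.polyHom f hf (FreeAlgebra.lift ℤ MvPolynomial.X W) = FreeAlgebra.lift ℤ f W := by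
  induction W using FreeAlgebra.induction with
  | grade0 r => simp
  | grade1 i => simp [FreeAlgebra.lift_ι_apply]
  | mul a b ha hb => simp [ha, hb]
  | add a b ha hb => simp [ha, hb]

theorem lift_X_surjective {σ : Type} :
    Function.Surjective (FreeAlgebra.lift ℤ (MvPolynomial.X : σ → MvPolynomial σ ℤ)) := fun P => by
  induction P using MvPolynomial.induction_on with
  | C a => exact ⟨algebraMap ℤ _ a, by simp⟩
  | add p q hp hq =>
    obtain ⟨a, rfl⟩ := hp; obtain ⟨b, rfl⟩ := hq; exact ⟨a + b, map_add _ _ _⟩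
  | mul_X p i hp => obtain ⟨a, rfl⟩ := hp; exact ⟨a * FreeAlgebra.ι ℤ i, by simp⟩

theorem isReps_heckeRep {L ℓ : ℕ} (hℓ : ℓ.Prime) (hℓL : ¬ ℓ ∣ L) :
    IsReps (Gamma0 L) (heckeRep ℓ) where
  det_ne_zero i := by rw [GalRep.det_heckeRep]; exact_mod_cast hℓ.ne_zero
  step γ i := GalRep.exists_transfer_step hℓ hℓL γ i
  sep i j g h := GalRep.heckeRep_unique hℓ (M := (1 : IMat))
    (by rw [Matrix.det_one]; exact_mod_cast hℓ.not_dvd_one) (by rw [one_mul]; exact h)

theorem emb_transferHom {L ℓ : ℕ} [NeZero L] (hg : GalRep.GoodIndex L ℓ)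
    (χ : Additive (Gamma0 L) →+ K) :
    emb (K := K) (Gamma0 L) (GalRep.transferHom hg χ) = opS (1 : K) (1 : K) ℓ (emb (K := K) (Gamma0 L) χ) := by
  have h := isReps_heckeRep hg.prime hg.not_dvd
  rw [show GalRep.transferHom hg χ = h.transfer χ from AddMonoidHom.ext fun x => by
    obtain ⟨γ, rfl⟩ := Additive.ofMul.surjective x
    rw [GalRep.transferHom_apply, IsReps.transfer_apply]
    exact Finset.sum_congr rfl fun i _ => by rw [(GalRep.tr_unique hg (h.spec γ i)).2]]
  rw [emb_transfer (NeZero.ne L) (fun g hg => DS.gamma1_le_gamma0 L (DS.gamma_le_gamma1 L hg)) h,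
    opS_apply, one_smul, one_smul, opU_apply, Fintype.sum_option, add_comm]
  congr 1
  rw [← Fin.sum_univ_eq_sum_range (fun j => sl (K := K) (bM ℓ (j : ℤ))
    (emb (K := K) (Gamma0 L) χ)) ℓ]
  rfl

variable {L : ℕ} [NeZero L] {S : Set ℕ}

/-- The index of the operators. -/
abbrev ellOf (i : GoodPrimeOff L S) : ℕ := ((i.1 : GoodPrime L) : ℕ)

theorem heckePolyHom_rename_lift (W : FreeAlgebra ℤ (GoodPrimeOff L S)) :
    GalRep.heckePolyHom L K (MvPolynomial.rename Subtype.val (FreeAlgebra.lift ℤ MvPolynomial.X W)) =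
      FreeAlgebra.lift ℤ (fun i : GoodPrimeOff L S => GalRep.heckeHomAt (A := K) i.1) W := by
  induction W using FreeAlgebra.induction with
  | grade0 r => simp
  | grade1 i => simp [FreeAlgebra.lift_ι_apply]
  | mul a b ha hb => simp [ha, hb]
  | add a b ha hb => simp [ha, hb]

/-- The germ of a parabolic homomorphism of `Γ₀(L)`. -/
def embPar (L : ℕ) : ParG (Gamma0 L) K →+ Germ K :=
  (emb (K := K) (Gamma0 L)).toAddMonoidHom.comp (ParG (Gamma0 L) K).subtype.toAddMonoidHom

theorem embPar_apply (v : ParG (Gamma0 L) K) :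
    embPar (K := K) L v = emb (K := K) (Gamma0 L) (v : Additive (Gamma0 L) →+ K) := rfl

theorem coe_heckeHomAt (i : GoodPrime L) (v : ParG (Gamma0 L) K) :
    ((GalRep.heckeHomAt (A := K) i v : ParG (Gamma0 L) K) : Additive (Gamma0 L) →+ K) =
      GalRep.transferHom (GalRep.goodIndex i) (v : Additive (Gamma0 L) →+ K) := rfl

theorem embPar_heckeHomAt (i : GoodPrimeOff L S) (v : ParG (Gamma0 L) K) :
    embPar (K := K) L (GalRep.heckeHomAt (A := K) i.1 v) =
      opZ ellOf (fun _ => (1 : K)) (fun _ => (1 : K)) i (embPar (K := K) L v) := by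
  rw [embPar_apply, coe_heckeHomAt, emb_transferHom, opZ_apply, embPar_apply]

/-- A relation among the operators on forms holds on the invariant germs. -/
theorem ev_one_eq_zero {P : MvPolynomial (GoodPrimeOff L S) ℤ} (hP : evFormsOff S P = 0)
    {W : FreeAlgebra ℤ (GoodPrimeOff L S)} (hW : FreeAlgebra.lift ℤ MvPolynomial.X W = P)
    {F : Germ K} (hF : F ∈ lv L (fun _ => (1 : K))) :
    ev ellOf (fun _ => (1 : K)) (fun _ => (1 : K)) W F = 0 := by
  obtain ⟨χ, hχ⟩ := exists_descend L hF.1 fun δ hδ => by rw [hF.2 δ hδ, one_smul]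
  have h0 : GalRep.evForms L (MvPolynomial.rename Subtype.val P) = 0 := by
    apply Subtype.ext
    rw [ZeroMemClass.coe_zero]
    refine (GalRep.coe_evFormsOff S P).symm.trans ?_
    rw [hP, ZeroMemClass.coe_zero]
  have hkill := NewVec.heckePoly_eq_zero_of_forms (A := K) h0
  rw [← hW, heckePolyHom_rename_lift] at hkill
  have h := (intertwine (fun i : GoodPrimeOff L S => GalRep.heckeHomAt (A := K) i.1)
    (opZ ellOf (fun _ => (1 : K)) (fun _ => (1 : K))) (embPar (K := K) L) (fun _ => True)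
    (fun _ _ _ => trivial) (fun _ _ _ _ => trivial) (fun _ _ _ => trivial)
    (fun i v _ => embPar_heckeHomAt i v) W χ trivial).2
  rw [hkill, LinearMap.zero_apply, map_zero, embPar_apply, hχ] at h
  exact h.symm

/-! ### The character components -/

variable {M : ℕ} [NeZero M] {Δ : Type} [CommGroup Δ] [Finite Δ] {c : (ZMod M)ˣ →* Δ}

instance finite_latField : Module.Finite K (Lat M c K) := by
  obtain ⟨s, hs⟩ := exists_generators_grp (M := M) (c := c)
  let f : Lat M c K →ₗ[K] (s → K) :=
    { toFun := fun χ g => (χ : Additive (grp M c) →+ K) (Additive.ofMul (g : grp M c))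
      map_add' := fun _ _ => rfl
      map_smul' := fun _ _ => rfl }
  refine Module.Finite.of_injective f ((injective_iff_map_eq_zero f).mpr fun χ hχ => ?_)
  refine lat_ext_apply fun γ => ?_
  have hγ : γ ∈ Subgroup.closure (s : Set (grp M c)) := hs ▸ Subgroup.mem_top γ
  induction hγ using Subgroup.closure_induction with
  | mem g hg => exact congrFun hχ ⟨g, hg⟩
  | one => rw [ofMul_one, map_zero]; rfl
  | mul a b _ _ ha hb => rw [ofMul_mul, map_add, map_add, ha, hb]
  | inv a _ ha => rw [ofMul_inv, map_neg, map_neg, ha]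

/-- The germ of a class. -/
def embLat : Lat M c K →ₗ[K] Germ K :=
  (emb (K := K) (grp M c)).comp (ModularCurve.Period.parabolicHoms K (grp M c) K).subtype

theorem embLat_apply (v : Lat M c K) :
    embLat (K := K) v = emb (K := K) (grp M c) (v : Additive (grp M c) →+ K) := rfl

theorem embLat_injective : Function.Injective (embLat (K := K) (M := M) (c := c)) :=
  fun _ _ h => Subtype.ext (emb_injective _ h)

theorem embLat_mem_parGerm (v : Lat M c K) : embLat (K := K) v ∈ parGerm K :=
  emb_mem_parGerm (NeZero.ne M) gamma_le_grp (toParG v)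

theorem embLat_transferEnd {ι : Type} [Fintype ι] {β : ι → IMat} (h : IsReps (grp M c) β)
    (v : Lat M c K) : embLat (K := K) (transferEnd h v) = ∑ i, sl (K := K) (β i) (embLat (K := K) v) :=
  emb_transfer (NeZero.ne M) gamma_le_grp h _

/-- An element of `Γ₀(M)` acts through the diamond operator of its lower right entry. -/
theorem sl_embLat {δ : SL(2, ℤ)} (hδ : δ ∈ Gamma0 M) (d : (ZMod M)ˣ)
    (hd : ((δ 1 1 : ℤ) : ZMod M) = d) (v : Lat M c K) :
    sl (K := K) (δ : IMat) (embLat (K := K) v) = embLat (K := K) (latDia M c K d v) := by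
  have e : latDia M c K d v = transferEnd (isReps_grp_diamond (c := c) hδ) v :=
    lat_ext_apply fun γ => by
      rw [latDia_apply, coe_transferEnd, transfer_grp_diamond]
      exact conjGrp_congr _ hδ (by rw [DS.diaMat_eleven, hd]) _ γ
  rw [e, embLat_transferEnd, Fintype.sum_unique]

variable [IsAlgClosed K]

/-- The component of a character of the units. -/
def comp (φ : (ZMod M)ˣ →* Kˣ) : Module.End K (Lat M c K) :=
  (Nat.card (ZMod M)ˣ : K)⁻¹ • ∑ u : (ZMod M)ˣ, ((φ u)⁻¹ : Kˣ).val • latDia M c K u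

theorem latDia_comp (φ : (ZMod M)ˣ →* Kˣ) (d : (ZMod M)ˣ) (v : Lat M c K) :
    latDia M c K d (comp φ v) = (φ d).val • comp φ v := by
  simp only [comp, LinearMap.smul_apply, LinearMap.sum_apply, map_smul, map_sum, Finset.smul_sum]
  refine Finset.sum_equiv (Equiv.mulLeft d) (by simp) fun u _ => ?_
  simp only [Equiv.coe_mulLeft, latDia_mul', Module.End.mul_apply, map_mul, mul_inv, Units.val_mul,
    smul_smul]
  congr 1
  field_simp
  simp [Units.val_inv_eq_inv_val]

theorem sum_comp [Fintype ((ZMod M)ˣ →* Kˣ)] (v : Lat M c K) :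
    ∑ φ : (ZMod M)ˣ →* Kˣ, comp φ v = v := by
  haveI : NeZero ((Monoid.exponent (ZMod M)ˣ : ℕ) : K) :=
    ⟨Nat.cast_ne_zero.mpr Monoid.exponent_ne_zero_of_finite⟩
  have hcard : (Fintype.card ((ZMod M)ˣ →* Kˣ) : K) = (Nat.card (ZMod M)ˣ : K) := by
    rw [← Nat.card_eq_fintype_card, CommGroup.card_monoidHom_of_hasEnoughRootsOfUnity]
  have horth : ∀ u : (ZMod M)ˣ, u ≠ 1 →
      ∑ φ : (ZMod M)ˣ →* Kˣ, ((φ u)⁻¹ : Kˣ).val = 0 := fun u hu => by
    obtain ⟨φ₀, hφ₀⟩ := CommGroup.exists_apply_ne_one_of_hasEnoughRootsOfUnity (ZMod M)ˣ K hu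
    have h := Equiv.sum_comp (Equiv.mulLeft φ₀) fun φ : (ZMod M)ˣ →* Kˣ => ((φ u)⁻¹ : Kˣ).val
    simp only [Equiv.coe_mulLeft, MonoidHom.mul_apply, mul_inv, Units.val_mul, ← Finset.mul_sum] at h
    by_contra hne
    exact hφ₀ (inv_eq_one.mp (Units.ext ((mul_eq_right₀ hne).mp h)))
  simp only [comp, LinearMap.smul_apply, LinearMap.sum_apply, Finset.smul_sum, smul_smul]
  rw [Finset.sum_comm, Finset.sum_eq_single (1 : (ZMod M)ˣ)]
  · simp only [map_one, inv_one, Units.val_one, mul_one, latDia_eq_one' (map_one c),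
      Module.End.one_apply, Finset.sum_const, Finset.card_univ, ← Nat.cast_smul_eq_nsmul K,
      smul_smul, hcard]
    rw [mul_inv_cancel₀ (Nat.cast_ne_zero.mpr Nat.card_pos.ne'), one_smul]
  · intro u _ hu
    rw [← Finset.sum_smul, ← Finset.mul_sum, horth u hu, mul_zero, zero_smul]
  · exact fun h => absurd (Finset.mem_univ _) h

end Fermat.Agent.Auto.Tw
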