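import Fermat.Agent.Auto.Twist.Ops
import Mathlib.NumberTheory.JacobiSum.Basic

/-!
Germs with a character under `Γ₀(L)`: stability under the operators, and the kernel of a twist.
-/

set_option autoImplicit false
set_option linter.unusedSectionVars false

noncomputable section

namespace Fermat.Agent.Auto.Tw

open CongruenceSubgroup
open Fermat.Agent.GalRep (IMat)
open Fermat.Agent.GalRep.Level (IsDiamond heckeRepG det_heckeRepG)
open scoped MatrixGroups

variable {K : Type} [Field K]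

/-- Germs of parabolic homomorphisms on which `Γ₀(L)` acts through `ψ` of the lower right entry. -/
def lv (L : ℕ) (ψ : ℤ → K) : Submodule K (Germ K) where
  carrier := {F | F ∈ parGerm K ∧
    ∀ δ ∈ Gamma0 L, sl (K := K) (δ : IMat) F = ψ (δ 1 1) • F}
  zero_mem' := ⟨zero_mem _, fun δ _ => by simp⟩
  add_mem' := by
    rintro F G ⟨hF, hF'⟩ ⟨hG, hG'⟩
    exact ⟨add_mem hF hG, fun δ hδ => by rw [map_add, hF' δ hδ, hG' δ hδ, smul_add]⟩
  smul_mem' := by
    rintro r F ⟨hF, hF'⟩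
    exact ⟨Submodule.smul_mem _ r hF, fun δ hδ => by rw [map_smul, hF' δ hδ, smul_comm]⟩

variable {L : ℕ} {ψ ψ' : ℤ → K}

theorem lv_periodic (h1 : ψ 1 = 1) {F : Germ K} (hF : F ∈ lv L ψ) : Periodic F := fun n => by
  have hn : ModularGroup.T ^ n ∈ Gamma0 L := by
    rw [Gamma0_mem, ModularGroup.coe_T_zpow]; simp
  have h := hF.2 _ hn
  rw [ModularGroup.coe_T_zpow] at h
  simpa [tM, h1] using h

theorem lv_congr (h : ∀ δ ∈ Gamma0 L, ψ (δ 1 1) = ψ' (δ 1 1)) : lv L ψ = lv L ψ' :=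
  le_antisymm (fun _ hF => ⟨hF.1, fun δ hδ => h δ hδ ▸ hF.2 δ hδ⟩)
    fun _ hF => ⟨hF.1, fun δ hδ => (h δ hδ).symm ▸ hF.2 δ hδ⟩

/-- For a germ at level `M` with a character, the sum over the representatives of `T_ℓ`. -/
theorem sum_heckeRepG_eq {M ℓ : ℕ} (hℓ : ℓ ≠ 0) (hM : IsUnit (M : ZMod ℓ)) {R : SL(2, ℤ)}
    {F : Germ K} (hper : Periodic F) {b : K}
    (hR : sl (K := K) (R : IMat) F = b • F) (a : K) :
    a • ∑ i, sl (K := K) (heckeRepG M ℓ R i) F = opS a b ℓ F := by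
  rw [opS_apply, opU_apply, Fintype.sum_option, add_comm]
  congr 2
  · haveI : NeZero ℓ := ⟨hℓ⟩
    rw [← sum_range_mul (fun x => sl (K := K) (bM ℓ x) F) (sl_bM_add hℓ hper) (m := (M : ℤ))
      (by simpa using hM),
      ← Fin.sum_univ_eq_sum_range (fun j => sl (K := K) (bM ℓ ((M : ℤ) * (j : ℤ))) F) ℓ]
    refine Finset.sum_congr rfl fun i _ => ?_
    simp [heckeRepG, bM, mul_comm]
  · refine Eq.trans (sl_mul (by rw [R.det_coe]; exact one_ne_zero) (det_dM hℓ) F).symm ?_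
    rw [hR, map_smul]

/-- The Hecke sums preserve the space. -/
theorem opS_mem_lv [NeZero L] (h1 : ψ 1 = 1) (hψ : ∀ x y : ℤ, (x : ZMod L) = y → ψ x = ψ y) {ℓ : ℕ} (hℓ : ℓ.Prime)
    (hℓL : ¬ ℓ ∣ L) {F : Germ K} (hF : F ∈ lv L ψ) (a : K) :
    opS a (ψ ℓ) ℓ F ∈ lv L ψ := by
  obtain ⟨R, hR⟩ := DS.exists_isDiamond (N := L) (hℓ.coprime_iff_not_dvd.2 hℓL)
  have hR0 := DS.diamond_mem_gamma0 hR
  rw [← sum_heckeRepG_eq (M := L) hℓ.ne_zero ((ZMod.isUnit_iff_coprime L ℓ).2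
      (hℓ.coprime_iff_not_dvd.2 hℓL).symm) (lv_periodic h1 hF) (R := R) (b := ψ ℓ)
    (by rw [hF.2 R hR0, hψ (R 1 1) ℓ (by rw [hR.2.2.2]; simp)]) a]
  refine Submodule.smul_mem _ _ ⟨Submodule.sum_mem _ fun i _ => sl_mem_parGerm _ hF.1, fun δ hδ => ?_⟩
  have hdet : ∀ i, (heckeRepG L ℓ R i).det ≠ 0 := fun i => by
    rw [det_heckeRepG]; exact_mod_cast hℓ.ne_zero
  have hd : ∀ x : SL(2, ℤ), (x : IMat).det ≠ 0 := fun x => by rw [x.det_coe]; exact one_ne_zero
  choose j g hg0 hg11 hg using DS.exists_step_hecke hℓ hℓL hR hδ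
  have hj : Function.Injective j := fun x y e => by
    refine DS.heckeRepG_sep hℓ hℓL hR (g x * (g y)⁻¹) ?_
    refine eq_of_mul_eq (hd δ) ?_
    rw [mul_assoc _ _ (δ : IMat), hg x, hg y, e, Matrix.SpecialLinearGroup.coe_mul, ← mul_assoc,
      mul_assoc (g x : IMat), ← Matrix.SpecialLinearGroup.coe_mul, inv_mul_cancel,
      Matrix.SpecialLinearGroup.coe_one, mul_one]
  rw [map_sum, Finset.smul_sum]
  conv_rhs => rw [← Equiv.sum_comp (Equiv.ofBijective j (Finite.injective_iff_bijective.mp hj))]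
  refine Finset.sum_congr rfl fun i _ => ?_
  rw [sl_mul (hdet i) (hd δ), hg i, ← sl_mul (hd _) (hdet _), hF.2 _ (hg0 i), map_smul,
    hψ _ _ (hg11 i)]
  rfl

variable {q : ℕ} [NeZero q]

/-- Twisting carries the space to the space of the twisted character. -/
theorem tw_mem_lv (hq2 : q ^ 2 ∣ L) (h1 : ψ 1 = 1)
    (hψ : ∀ x y : ℤ, (x : ZMod (L / q)) = y → ψ x = ψ y) (w : ZMod q → K)
    (hw : ∀ d : ℤ, IsCoprime d (L : ℤ) → ∀ u : ZMod q,
      w u * ψ d = ψ' d * w (u * (d : ZMod q) ^ 2))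
    {F : Germ K} (hF : F ∈ lv L ψ) : tw q w F ∈ lv L ψ' := by
  have hq := NeZero.ne q
  have hper := lv_periodic h1 hF
  refine ⟨?_, fun δ hδ => ?_⟩
  · rw [tw_apply]
    exact Submodule.sum_mem _ fun u _ => Submodule.smul_mem _ _ (sl_mem_parGerm _ hF.1)
  obtain ⟨c₀, hc₀⟩ := (Int.natCast_dvd_natCast.mpr hq2).trans (Newform.mem_Gamma0_iff_dvd.mp hδ)
  push_cast at hc₀
  obtain ⟨L₁, hL₁⟩ := (dvd_pow_self q two_ne_zero).trans hq2
  obtain ⟨c₁, hc₁⟩ := Newform.mem_Gamma0_iff_dvd.mp hδ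
  set a := (δ : IMat) 0 0
  set b := (δ : IMat) 0 1
  set d := (δ : IMat) 1 1
  set c := (δ : IMat) 1 0
  have hdet : a * d - b * c = 1 := by
    have := δ.det_coe; rwa [Matrix.det_fin_two] at this
  have had : (a : ZMod q) * (d : ZMod q) = 1 := by
    have := congrArg (fun z : ℤ => (z : ZMod q)) hdet
    simpa [hc₀] using this
  have hdu : IsUnit (d : ZMod q) := IsUnit.of_mul_eq_one_right _ had
  have hdL : IsCoprime d (L : ℤ) := ⟨a, -b * c₁, by rw [hc₁] at hdet; linear_combination hdet⟩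
  rw [tw_apply, map_sum, Finset.smul_sum]
  conv_rhs => rw [← Equiv.sum_comp (hdu.pow 2).unit.mulRight]
  refine Finset.sum_congr rfl fun u _ => ?_
  rw [Units.mulRight_apply, IsUnit.unit_spec]
  set u' : ℤ := (((u * (d : ZMod q) ^ 2).val : ℕ) : ℤ)
  set uz : ℤ := (u.val : ℤ)
  obtain ⟨k, hk⟩ : (q : ℤ) ∣ uz * d - u' * a := by
    rw [← ZMod.intCast_zmod_eq_zero_iff_dvd]
    simp only [uz, u', Int.cast_sub, Int.cast_mul, Int.cast_natCast, ZMod.natCast_zmod_val]
    linear_combination -(u * (d : ZMod q)) * had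
  let γ' : SL(2, ℤ) := ⟨!![a + uz * q * c₀, b + k - uz * u' * c₀; c, d - u' * q * c₀], by
    rw [Matrix.det_fin_two_of]
    linear_combination hdet + (uz * u' * c₀ - k) * (hc₀ : c = _) + (q : ℤ) * c₀ * hk⟩
  have hγ' : γ' ∈ Gamma0 L := by
    refine Newform.mem_Gamma0_iff_dvd.mpr ?_
    show (L : ℤ) ∣ c
    exact ⟨c₁, hc₁⟩
  have hψd : ψ (γ' 1 1) = ψ d := by
    refine hψ _ _ ?_
    show (((d - u' * q * c₀ : ℤ)) : ZMod (L / q)) = _
    have hLq : L / q = L₁ := by rw [hL₁]; exact Nat.mul_div_cancel_left _ (Nat.pos_of_ne_zero hq)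
    have : (q : ℤ) * c₀ = (L₁ : ℤ) * c₁ := by
      refine mul_left_cancel₀ (Int.natCast_ne_zero.mpr hq) ?_
      rw [← mul_assoc, ← mul_assoc, ← sq, ← hc₀, hc₁, hL₁]
      push_cast; ring
    rw [ZMod.intCast_eq_intCast_iff_dvd_sub, hLq]
    exact ⟨u' * c₁, by rw [show d - (d - u' * q * c₀) = u' * ((q : ℤ) * c₀) by ring, this]; ring⟩
  rw [map_smul, sl_mul (det_alM hq _) (by rw [δ.det_coe]; exact one_ne_zero),
    show alM q uz * (δ : IMat) = (γ' : IMat) * alM q u' by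
      ext i j
      fin_cases i <;> fin_cases j <;>
        simp [alM, γ', Matrix.mul_apply, Fin.sum_univ_two, a, b, c, d]
      · linear_combination uz * (hc₀ : c = _)
      · linear_combination hk
      · exact mul_comm _ _
      · linear_combination (-u') * (hc₀ : c = _),
    ← sl_mul (by rw [γ'.det_coe]; exact one_ne_zero) (det_alM hq _), hF.2 γ' hγ', hψd, map_smul,
    smul_smul, smul_smul, hw d hdL u]

/-- `F ↦ F|[[1,0],[0,q]]` preserves the space on translation invariant germs. -/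
theorem shrink_mem_lv (hqL : q ∣ L) (hψ : ∀ x y : ℤ, (x : ZMod L) = y → ψ x = ψ y) {F : Germ K}
    (hF : F ∈ lv L ψ) (hfix : ∀ x, sl (K := K) (alM q x) F = F) :
    sl (K := K) (bM q 0) F ∈ lv L ψ := by
  have hq := NeZero.ne q
  refine ⟨sl_mem_parGerm _ hF.1, fun δ hδ => ?_⟩
  obtain ⟨c₁, hc₁⟩ := Newform.mem_Gamma0_iff_dvd.mp hδ
  have hdetδ := δ.det_coe
  rw [Matrix.det_fin_two] at hdetδ
  set a := (δ : IMat) 0 0
  set b := (δ : IMat) 0 1
  set d := (δ : IMat) 1 1
  set c := (δ : IMat) 1 0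
  obtain ⟨qc, hqc⟩ := (Int.natCast_dvd_natCast.mpr hqL).trans (Dvd.intro c₁ hc₁.symm)
  -- `b - a' d` is divisible by `q` for `a' = a b`
  obtain ⟨t, ht⟩ : (q : ℤ) ∣ b - a * b * d :=
    ⟨-b * qc * b, by linear_combination (-b) * hdetδ - b * b * hqc⟩
  set x := a * b
  let γ' : SL(2, ℤ) := ⟨!![a - x * c, t; q * c, d], by
    rw [Matrix.det_fin_two_of]; linear_combination hdetδ + c * ht⟩
  have hγ' : γ' ∈ Gamma0 L := Newform.mem_Gamma0_iff_dvd.mpr ⟨q * c₁, by
    show (q : ℤ) * c = _; rw [hc₁]; ring⟩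
  have hd : ∀ y : SL(2, ℤ), (y : IMat).det ≠ 0 := fun y => by rw [y.det_coe]; exact one_ne_zero
  rw [sl_mul (det_bM hq _) (hd δ),
    ← sl_smul (Int.natCast_ne_zero.mpr hq) (by
      rw [Matrix.det_mul]; exact mul_ne_zero (det_bM hq _) (hd δ)),
    show (q : ℤ) • (bM q 0 * (δ : IMat)) = alM q x * ((γ' : IMat) * bM q 0) by
      rw [Matrix.eta_fin_two (δ : IMat)]
      ext i j
      fin_cases i <;> fin_cases j <;>
        simp [alM, bM, γ', Matrix.mul_apply, Fin.sum_univ_two, a, b, c, d]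
      all_goals first | linear_combination (q : ℤ) * ht | linear_combination ht | ring1 |
        exact Or.inl (mul_comm _ _),
    ← sl_mul (det_alM hq _) (by rw [Matrix.det_mul]; exact mul_ne_zero (hd γ') (det_bM hq _)),
    hfix, ← sl_mul (hd γ') (det_bM hq _), hF.2 γ' hγ', map_smul]
  rfl

/-- Germs killed by a twist are fixed by all translations by multiples of `1/q`. -/
theorem eq_avg_of_tw_eq_zero [Fact q.Prime] {w : MulChar (ZMod q) K} (hw : w ≠ 1)
    {F : Germ K} (hper : Periodic F) (h : tw q (fun u => w u) F = 0) :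
    (q : K) • F = avg (K := K) q F := by
  classical
  have hq := NeZero.ne q
  have h2 := congrArg (tw q fun u => w⁻¹ u) h
  rw [map_zero, tw_apply, tw_apply, Finset.sum_congr rfl fun u _ => by rw [map_sum, Finset.smul_sum]]
    at h2
  have e : ∀ u v : ZMod q, sl (K := K) (alM q (v.val : ℤ)) (sl (K := K) (alM q (u.val : ℤ)) F) =
      sl (K := K) (alM q (((u + v : ZMod q).val : ℕ) : ℤ)) F := fun u v => by
    rw [sl_mul (det_alM hq _) (det_alM hq _),
      show alM q (u.val : ℤ) * alM q (v.val : ℤ) = (q : ℤ) • alM q ((u.val : ℤ) + v.val) by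
        ext i k; fin_cases i <;> fin_cases k <;>
          simp [alM, Matrix.mul_apply, Fin.sum_univ_two] <;> ring,
      sl_smul (Int.natCast_ne_zero.mpr hq) (det_alM hq _)]
    exact sl_alM_congr hper (by simp)
  simp only [map_smul, e, smul_smul] at h2
  rw [Finset.sum_comm] at h2
  have h3 : ∑ s : ZMod q, (∑ u : ZMod q, w⁻¹ (s - u) * w u) •
      sl (K := K) (alM q (s.val : ℤ)) F = 0 := by
    simp only [Finset.sum_smul]
    rw [Finset.sum_comm]
    refine Eq.trans (Finset.sum_congr rfl fun u _ => ?_) h2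
    conv_lhs => rw [← Equiv.sum_comp (Equiv.addLeft u)]
    refine Finset.sum_congr rfl fun v _ => ?_
    simp [Equiv.coe_addLeft]
  have hJ : ∀ s : ZMod q, (∑ u : ZMod q, w⁻¹ (s - u) * w u) =
      w (-1) * ((if s = 0 then (q : K) else 0) - 1) := fun s => by
    by_cases hs : s = 0
    · subst hs
      rw [if_pos rfl]
      have : ∀ u : ZMod q, w⁻¹ (0 - u) * w u = if u = 0 then 0 else w (-1) := fun u => by
        by_cases hu : u = 0
        · simp [hu, MulChar.map_zero]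
        · rw [if_neg hu, zero_sub, show -u = (-1) * u by ring, map_mul, mul_assoc,
            ← MulChar.mul_apply, inv_mul_cancel, MulChar.one_apply (isUnit_iff_ne_zero.mpr hu),
            mul_one, MulChar.inv_apply', inv_neg, inv_one]
      rw [Finset.sum_congr rfl fun u _ => this u, Finset.sum_ite, Finset.sum_const_zero, zero_add,
        Finset.sum_const, Finset.filter_ne', Finset.card_erase_of_mem (Finset.mem_univ _),
        Finset.card_univ, ZMod.card, nsmul_eq_mul,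
        Nat.cast_sub (Fact.out : q.Prime).one_lt.le]
      push_cast; ring
    · rw [if_neg hs, zero_sub, mul_neg, mul_one, ← jacobiSum_nontrivial_inv hw, jacobiSum]
      rw [← Equiv.sum_comp (Equiv.mulLeft₀ s hs)]
      refine Finset.sum_congr rfl fun t _ => ?_
      rw [Equiv.mulLeft₀_apply, show s - s * t = s * (1 - t) by ring, map_mul, map_mul]
      have h1 : w⁻¹ s * w s = 1 := by
        rw [← MulChar.mul_apply, inv_mul_cancel, MulChar.one_apply (isUnit_iff_ne_zero.mpr hs)]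
      linear_combination (w⁻¹ (1 - t) * w t) * h1
  simp only [hJ, mul_smul, ← Finset.smul_sum] at h3
  rw [smul_eq_zero, or_iff_right ((isUnit_iff_ne_zero.mpr (neg_ne_zero.mpr one_ne_zero)).map w).ne_zero]
    at h3
  simp only [sub_smul, one_smul, Finset.sum_sub_distrib, sub_eq_zero, ite_smul, zero_smul,
    Finset.sum_ite_eq', Finset.mem_univ, if_true] at h3
  rw [tw_apply]
  simp only [one_smul]
  rw [← h3, ZMod.val_zero, show alM q ((0 : ℕ) : ℤ) = (q : ℤ) • (1 : IMat) by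
    ext i k; fin_cases i <;> fin_cases k <;> simp [alM], sl_scalar (Int.natCast_ne_zero.mpr hq)]

end Fermat.Agent.Auto.Tw
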