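import Fermat.Agent.Auto.Twist.Germ

/-!
Twisting operators on germs: sums over translates `z ↦ z + u/q`, the Hecke sums, and their
commutation.
-/

set_option autoImplicit false
set_option linter.unusedSectionVars false

noncomputable section

namespace Fermat.Agent.Auto.Tw

open CongruenceSubgroup
open Fermat.Agent.GalRep (IMat)
open Fermat.Agent.GalRep.Level (IsDiamond heckeRepG)
open scoped MatrixGroups

variable {K : Type} [Field K]

/-- `[[1, j], [0, ℓ]]`. -/
def bM (ℓ : ℕ) (j : ℤ) : IMat := !![1, j; 0, (ℓ : ℤ)]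

/-- `[[ℓ, 0], [0, 1]]`. -/
def dM (ℓ : ℕ) : IMat := !![(ℓ : ℤ), 0; 0, 1]

/-- `[[q, s], [0, q]]`, translation by `s/q`. -/
def alM (q : ℕ) (s : ℤ) : IMat := !![(q : ℤ), s; 0, (q : ℤ)]

/-- Translation by an integer. -/
def tM (n : ℤ) : IMat := !![1, n; 0, 1]

theorem det_bM {ℓ : ℕ} (hℓ : ℓ ≠ 0) (j : ℤ) : (bM ℓ j).det ≠ 0 := by
  simp [bM, Matrix.det_fin_two, hℓ]

theorem det_dM {ℓ : ℕ} (hℓ : ℓ ≠ 0) : (dM ℓ).det ≠ 0 := by
  simp [dM, Matrix.det_fin_two, hℓ]

theorem det_alM {q : ℕ} (hq : q ≠ 0) (s : ℤ) : (alM q s).det ≠ 0 := by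
  simp [alM, Matrix.det_fin_two, hq]

theorem det_tM (n : ℤ) : (tM n).det ≠ 0 := by simp [tM, Matrix.det_fin_two]

/-- Invariance under translations by integers. -/
def Periodic (F : Germ K) : Prop := ∀ n : ℤ, sl (K := K) (tM n) F = F

theorem sum_range_periodic {A : Type*} [AddCommGroup A] (ℓ : ℕ) (g : ℤ → A)
    (hg : ∀ x, g (x + ℓ) = g x) (n : ℤ) :
    ∑ j ∈ Finset.range ℓ, g (n + j) = ∑ j ∈ Finset.range ℓ, g j := by
  have step : ∀ n : ℤ,
      ∑ j ∈ Finset.range ℓ, g (n + 1 + j) = ∑ j ∈ Finset.range ℓ, g (n + j) := fun n => by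
    have h1 := Finset.sum_range_succ (fun j : ℕ => g (n + j)) ℓ
    rw [Finset.sum_range_succ' (fun j : ℕ => g (n + j)) ℓ, hg n] at h1
    simp only [Nat.cast_add, Nat.cast_one, Nat.cast_zero, add_zero] at h1
    rw [← add_right_cancel h1]
    exact Finset.sum_congr rfl fun j _ => by ring_nf
  induction n using Int.induction_on with
  | zero => simp
  | succ i ih => rw [step, ih]
  | pred i ih =>
    rw [← ih]
    have := step (-(i : ℤ) - 1)
    simpa using this.symm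

theorem apply_congr_of_periodic {A : Type*} (q : ℕ) (g : ℤ → A) (hg : ∀ x t, g (x + t * q) = g x)
    {x y : ℤ} (h : (x : ZMod q) = y) : g x = g y := by
  obtain ⟨t, ht⟩ := (ZMod.intCast_eq_intCast_iff_dvd_sub x y q).mp h
  rw [show y = x + t * q by linarith, hg]

theorem sum_range_mul {A : Type*} [AddCommGroup A] {ℓ : ℕ} [NeZero ℓ] (g : ℤ → A)
    (hg : ∀ x s, g (x + s * ℓ) = g x) {m : ℤ} (hm : IsUnit (m : ZMod ℓ)) :
    ∑ j ∈ Finset.range ℓ, g (m * j) = ∑ j ∈ Finset.range ℓ, g j := by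
  have key : ∀ f : ℤ → A, ∑ j ∈ Finset.range ℓ, f j = ∑ z : ZMod ℓ, f (z.val : ℤ) := fun f => by
    refine Finset.sum_bij (fun j _ => (j : ZMod ℓ)) (fun _ _ => Finset.mem_univ _)
      (fun a ha b hb e => ?_) (fun z _ => ⟨z.val, Finset.mem_range.mpr z.val_lt, by simp⟩)
      (fun a ha => by rw [ZMod.val_natCast, Nat.mod_eq_of_lt (Finset.mem_range.mp ha)])
    have := congrArg ZMod.val e
    rwa [ZMod.val_natCast, ZMod.val_natCast, Nat.mod_eq_of_lt (Finset.mem_range.mp ha),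
      Nat.mod_eq_of_lt (Finset.mem_range.mp hb)] at this
  rw [key (fun x => g (m * x)), key g]
  conv_rhs => rw [← Equiv.sum_comp hm.unit.mulLeft]
  refine Finset.sum_congr rfl fun z _ => ?_
  refine apply_congr_of_periodic ℓ g hg ?_
  simp

/-! ### The operators -/

variable (K) in
/-- The sum over `[[1, j], [0, ℓ]]`. -/
def opU (ℓ : ℕ) : Germ K →ₗ[K] Germ K := ∑ j ∈ Finset.range ℓ, sl (bM ℓ (j : ℤ))

/-- The Hecke sum with weights. -/
def opS (a b : K) (ℓ : ℕ) : Germ K →ₗ[K] Germ K := a • (opU K ℓ + b • sl (K := K) (dM ℓ))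

theorem opU_apply (ℓ : ℕ) (F : Germ K) :
    opU K ℓ F = ∑ j ∈ Finset.range ℓ, sl (K := K) (bM ℓ (j : ℤ)) F := by
  simp [opU, LinearMap.sum_apply]

theorem opS_apply (a b : K) (ℓ : ℕ) (F : Germ K) :
    opS a b ℓ F = a • (opU K ℓ F + b • sl (K := K) (dM ℓ) F) := rfl

theorem sl_bM_add {ℓ : ℕ} (hℓ : ℓ ≠ 0) {F : Germ K} (hF : Periodic F) (x t : ℤ) :
    sl (K := K) (bM ℓ (x + t * ℓ)) F = sl (K := K) (bM ℓ x) F := by
  conv_rhs => rw [← hF t, sl_mul (det_tM t) (det_bM hℓ x)]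
  congr 2
  ext i j; fin_cases i <;> fin_cases j <;> simp [bM, tM, Matrix.mul_apply, Fin.sum_univ_two]

theorem periodic_opS {ℓ : ℕ} (hℓ : ℓ ≠ 0) {F : Germ K} (hF : Periodic F) (a b : K) :
    Periodic (opS a b ℓ F) := fun n => by
  have h1 : sl (K := K) (tM n) (opU K ℓ F) = opU K ℓ F := by
    rw [opU_apply, map_sum,
      ← sum_range_periodic ℓ (fun x => sl (K := K) (bM ℓ x) F)
        (fun x => by simpa using sl_bM_add hℓ hF x 1) n]
    refine Finset.sum_congr rfl fun j _ => ?_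
    rw [sl_mul (det_bM hℓ _) (det_tM n)]
    congr 2
    ext i k; fin_cases i <;> fin_cases k <;>
      simp [bM, tM, Matrix.mul_apply, Fin.sum_univ_two, add_comm]
  have h2 : sl (K := K) (tM n) (sl (K := K) (dM ℓ) F) = sl (K := K) (dM ℓ) F := by
    conv_rhs => rw [← hF (ℓ * n), sl_mul (det_tM _) (det_dM hℓ)]
    rw [sl_mul (det_dM hℓ) (det_tM n)]
    congr 2
    ext i k; fin_cases i <;> fin_cases k <;> simp [dM, tM, Matrix.mul_apply, Fin.sum_univ_two]
  rw [opS_apply, map_smul, map_add, map_smul, h1, h2]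

/-- The weighted sum of translates by `u/q`. -/
def tw (q : ℕ) [NeZero q] (w : ZMod q → K) : Germ K →ₗ[K] Germ K :=
  ∑ u : ZMod q, w u • sl (K := K) (alM q (u.val : ℤ))

variable {q : ℕ} [NeZero q]

theorem tw_apply (w : ZMod q → K) (F : Germ K) :
    tw q w F = ∑ u : ZMod q, w u • sl (K := K) (alM q (u.val : ℤ)) F := by
  simp [tw, LinearMap.sum_apply]

theorem sl_alM_congr {F : Germ K} (hF : Periodic F) {x y : ℤ} (h : (x : ZMod q) = y) :
    sl (K := K) (alM q x) F = sl (K := K) (alM q y) F := by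
  refine apply_congr_of_periodic q (fun x => sl (K := K) (alM q x) F) (fun x t => ?_) h
  show sl (K := K) (alM q (x + t * q)) F = sl (K := K) (alM q x) F
  conv_rhs => rw [← hF t, sl_mul (det_tM t) (det_alM (NeZero.ne q) x)]
  congr 2
  ext i j; fin_cases i <;> fin_cases j <;> simp [alM, tM, Matrix.mul_apply, Fin.sum_univ_two]

theorem periodic_tw {F : Germ K} (hF : Periodic F) (w : ZMod q → K) : Periodic (tw q w F) :=
  fun n => by
  rw [tw_apply, map_sum]
  refine Finset.sum_congr rfl fun u _ => ?_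
  conv_rhs => rw [← hF n, sl_mul (det_tM n) (det_alM (NeZero.ne q) _)]
  rw [map_smul, sl_mul (det_alM (NeZero.ne q) _) (det_tM n)]
  congr 3
  ext i j; fin_cases i <;> fin_cases j <;>
    simp [alM, tM, Matrix.mul_apply, Fin.sum_univ_two, add_comm, mul_comm]

theorem tw_opU {ℓ : ℕ} (hℓ : ℓ ≠ 0) (hℓq : IsUnit (ℓ : ZMod q)) {F : Germ K} (hF : Periodic F)
    (w : ZMod q → K) : tw q w (opU K ℓ F) = opU K ℓ (tw q (fun u => w (ℓ * u)) F) := by
  have hq := NeZero.ne q
  set G : ℤ → Germ K := fun x => sl (K := K) (!![(q : ℤ), x; 0, (q : ℤ) * ℓ] : IMat) F with hG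
  have hGper : ∀ x t : ℤ, G (x + t * (q * ℓ)) = G x := fun x t => by
    simp only [hG]
    conv_rhs => rw [← hF t, sl_mul (det_tM t) (by simp [Matrix.det_fin_two, hq, hℓ])]
    congr 2
    ext i j; fin_cases i <;> fin_cases j <;> simp [tM, Matrix.mul_apply, Fin.sum_univ_two]
  set H : ℤ → Germ K := fun x => ∑ j ∈ Finset.range ℓ, G (x + q * (j : ℤ)) with hH
  have hHper : ∀ x t : ℤ, H (x + t * q) = H x := fun x t => by
    have := sum_range_periodic ℓ (fun z => G (x + q * z)) (fun z => by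
      show G (x + q * (z + ℓ)) = G (x + q * z)
      rw [show x + (q : ℤ) * (z + ℓ) = x + q * z + 1 * (q * ℓ) by ring, hGper]) t
    simp only [hH]
    rw [← this]
    exact Finset.sum_congr rfl fun j _ => by ring_nf
  have lhs : ∀ u : ZMod q, sl (K := K) (alM q (u.val : ℤ)) (opU K ℓ F) = H (u.val : ℤ) := fun u => by
    rw [opU_apply, map_sum, hH]
    refine Finset.sum_congr rfl fun j _ => ?_
    rw [sl_mul (det_bM hℓ _) (det_alM hq _)]
    simp only [hG]
    congr 2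
    ext i k; fin_cases i <;> fin_cases k <;>
      simp [bM, alM, Matrix.mul_apply, Fin.sum_univ_two, mul_comm]
  have rhs : ∀ u : ZMod q, opU K ℓ (sl (K := K) (alM q (u.val : ℤ)) F) = H (ℓ * (u.val : ℤ)) := fun u => by
    rw [opU_apply, hH]
    refine Finset.sum_congr rfl fun j _ => ?_
    rw [sl_mul (det_alM hq _) (det_bM hℓ _)]
    simp only [hG]
    congr 2
    ext i k; fin_cases i <;> fin_cases k <;>
      simp [bM, alM, Matrix.mul_apply, Fin.sum_univ_two] <;> ring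
  rw [tw_apply, tw_apply, map_sum]
  simp only [lhs, map_smul, rhs]
  rw [← Equiv.sum_comp hℓq.unit.mulLeft (fun u : ZMod q => w u • H (u.val : ℤ))]
  refine Finset.sum_congr rfl fun u _ => ?_
  simp only [Units.mulLeft_apply, IsUnit.unit_spec]
  congr 1
  refine apply_congr_of_periodic q H hHper ?_
  simp

theorem tw_dM {ℓ : ℕ} (hℓ : ℓ ≠ 0) (hℓq : IsUnit (ℓ : ZMod q)) {F : Germ K} (hF : Periodic F)
    (w : ZMod q → K) :
    tw q w (sl (K := K) (dM ℓ) F) =
      sl (K := K) (dM ℓ) (tw q (fun u => w ((hℓq.unit⁻¹ : (ZMod q)ˣ) * u)) F) := by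
  have hq := NeZero.ne q
  rw [tw_apply, tw_apply, map_sum,
    ← Equiv.sum_comp (hℓq.unit⁻¹).mulLeft
      (fun u : ZMod q => w u • sl (K := K) (alM q (u.val : ℤ)) (sl (K := K) (dM ℓ) F))]
  refine Finset.sum_congr rfl fun u _ => ?_
  simp only [Units.mulLeft_apply, map_smul]
  congr 1
  set v : ZMod q := ((hℓq.unit⁻¹ : (ZMod q)ˣ) : ZMod q) * u
  rw [sl_alM_congr hF (y := (ℓ : ℤ) * (v.val : ℤ)) (x := (u.val : ℤ)) ?_,
    sl_mul (det_dM hℓ) (det_alM hq _), sl_mul (det_alM hq _) (det_dM hℓ)]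
  · congr 2
    ext i k; fin_cases i <;> fin_cases k <;>
      simp [dM, alM, Matrix.mul_apply, Fin.sum_univ_two] <;> ring
  · simp only [v, Int.cast_mul, Int.cast_natCast, ZMod.natCast_zmod_val, ← mul_assoc]
    rw [IsUnit.mul_val_inv, one_mul]

theorem tw_smul (e : K) (w : ZMod q → K) (F : Germ K) :
    tw q (fun u => e * w u) F = e • tw q w F := by
  simp [tw_apply, Finset.smul_sum, mul_smul]

/-- Twisting commutes with the Hecke sums, changing the weights. -/
theorem tw_opS {ℓ : ℕ} (hℓ : ℓ ≠ 0) (hℓq : IsUnit (ℓ : ZMod q)) {F : Germ K} (hF : Periodic F)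
    {w : ZMod q → K} {e : K} (he : e ≠ 0) (hw : ∀ u, w (ℓ * u) = e * w u) (a b : K) :
    tw q w (opS a b ℓ F) = opS (a * e) (b * e⁻¹ * e⁻¹) ℓ (tw q w F) := by
  have hw' : ∀ u, w ((hℓq.unit⁻¹ : (ZMod q)ˣ) * u) = e⁻¹ * w u := fun u => by
    have := hw ((hℓq.unit⁻¹ : (ZMod q)ˣ) * u)
    rw [← mul_assoc, IsUnit.mul_val_inv, one_mul] at this
    rw [this, inv_mul_cancel_left₀ he]
  rw [opS_apply, map_smul, map_add, map_smul, tw_opU hℓ hℓq hF, tw_dM hℓ hℓq hF,
    funext hw, funext hw', tw_smul, tw_smul, map_smul, map_smul, opS_apply]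
  simp only [smul_add, smul_smul]
  congr 2
  field_simp

/-- The sum of all translates. -/
abbrev avg (q : ℕ) [NeZero q] : Germ K →ₗ[K] Germ K := tw q fun _ => (1 : K)

theorem avg_fixed {F : Germ K} (hF : Periodic F) (x : ℤ) :
    sl (K := K) (alM q x) (avg (K := K) q F) = avg (K := K) q F := by
  have hq := NeZero.ne q
  rw [tw_apply, map_sum]
  conv_rhs => rw [← Equiv.sum_comp (Equiv.addRight (x : ZMod q))]
  refine Finset.sum_congr rfl fun u _ => ?_
  rw [map_smul, sl_mul (det_alM hq _) (det_alM hq _), Equiv.coe_addRight,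
    show alM q (u.val : ℤ) * alM q x = (q : ℤ) • alM q ((u.val : ℤ) + x) by
      ext i k; fin_cases i <;> fin_cases k <;>
        simp [alM, Matrix.mul_apply, Fin.sum_univ_two] <;> ring,
    sl_smul (Int.natCast_ne_zero.mpr hq) (det_alM hq _)]
  congr 1
  exact sl_alM_congr hF (by simp)

/-- `F ↦ F|[[1,0],[0,q]]` commutes with the Hecke sums on translation invariant germs. -/
theorem shrink_opS {ℓ : ℕ} (hℓ : ℓ ≠ 0) (hcop : IsUnit (q : ZMod ℓ)) {H : Germ K}
    (hfix : ∀ x, sl (K := K) (alM q x) H = H) (a b : K) :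
    sl (K := K) (bM q 0) (opS a b ℓ H) = opS a b ℓ (sl (K := K) (bM q 0) H) := by
  have hq := NeZero.ne q
  set G : ℤ → Germ K := fun x => sl (K := K) (bM (q * ℓ) x) H
  have hd := det_bM (mul_ne_zero hq hℓ)
  have hGper : ∀ x s : ℤ, G (x + s * ℓ) = G x := fun x s => by
    simp only [G]
    conv_rhs => rw [← hfix s, sl_mul (det_alM hq s) (hd x)]
    rw [show alM q s * bM (q * ℓ) x = (q : ℤ) • bM (q * ℓ) (x + s * ℓ) by
      ext i k; fin_cases i <;> fin_cases k <;>
        simp [alM, bM, Matrix.mul_apply, Fin.sum_univ_two] <;> ring,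
      sl_smul (Int.natCast_ne_zero.mpr hq) (hd _)]
  have h1 : sl (K := K) (bM q 0) (opU K ℓ H) = ∑ j ∈ Finset.range ℓ, G ((q : ℤ) * j) := by
    rw [opU_apply, map_sum]
    refine Finset.sum_congr rfl fun j _ => ?_
    rw [sl_mul (det_bM hℓ _) (det_bM hq _)]
    simp only [G]
    congr 2
    ext i k; fin_cases i <;> fin_cases k <;>
      simp [bM, Matrix.mul_apply, Fin.sum_univ_two, mul_comm]
  have h2 : opU K ℓ (sl (K := K) (bM q 0) H) = ∑ j ∈ Finset.range ℓ, G (j : ℤ) := by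
    rw [opU_apply]
    refine Finset.sum_congr rfl fun j _ => ?_
    rw [sl_mul (det_bM hq _) (det_bM hℓ _)]
    simp only [G]
    congr 2
    ext i k; fin_cases i <;> fin_cases k <;> simp [bM, Matrix.mul_apply, Fin.sum_univ_two]
  have h3 : sl (K := K) (bM q 0) (sl (K := K) (dM ℓ) H) =
      sl (K := K) (dM ℓ) (sl (K := K) (bM q 0) H) := by
    rw [sl_mul (det_dM hℓ) (det_bM hq _), sl_mul (det_bM hq _) (det_dM hℓ)]
    congr 2
    ext i k; fin_cases i <;> fin_cases k <;> simp [bM, dM, Matrix.mul_apply, Fin.sum_univ_two]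
  rw [opS_apply, map_smul, map_add, map_smul, h3, opS_apply, h1, h2]
  congr 2
  haveI : NeZero ℓ := ⟨hℓ⟩
  exact sum_range_mul G hGper (by simpa using hcop)

/-! ### Polynomials in the operators -/

theorem intertwine {ι V W : Type*} [AddCommGroup V] [AddCommGroup W] (o : ι → Module.End ℤ V)
    (o' : ι → Module.End ℤ W) (Φ : V →+ W) (P : V → Prop)
    (hP : ∀ i F, P F → P (o i F)) (hadd : ∀ F G, P F → P G → P (F + G))
    (hz : ∀ (n : ℤ) F, P F → P (n • F))
    (hΦ : ∀ i F, P F → Φ (o i F) = o' i (Φ F)) (x : FreeAlgebra ℤ ι) :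
    ∀ F, P F → P (FreeAlgebra.lift ℤ o x F) ∧
      Φ (FreeAlgebra.lift ℤ o x F) = FreeAlgebra.lift ℤ o' x (Φ F) := by
  induction x using FreeAlgebra.induction with
  | grade0 r =>
    intro F hF
    rw [AlgHom.commutes, AlgHom.commutes, Module.algebraMap_end_apply, Module.algebraMap_end_apply,
      map_zsmul]
    exact ⟨hz r F hF, rfl⟩
  | grade1 i =>
    intro F hF
    rw [FreeAlgebra.lift_ι_apply, FreeAlgebra.lift_ι_apply]
    exact ⟨hP i F hF, hΦ i F hF⟩
  | mul a b ha hb =>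
    intro F hF
    obtain ⟨h1, e1⟩ := hb F hF
    obtain ⟨h2, e2⟩ := ha _ h1
    rw [map_mul, map_mul, Module.End.mul_apply, Module.End.mul_apply]
    exact ⟨h2, by rw [e2, e1]⟩
  | add a b ha hb =>
    intro F hF
    rw [map_add, map_add, LinearMap.add_apply, LinearMap.add_apply, map_add, (ha F hF).2, (hb F hF).2]
    exact ⟨hadd _ _ (ha F hF).1 (hb F hF).1, rfl⟩

end Fermat.Agent.Auto.Tw
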