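import Fermat.Agent.Auto.Twist.Lattice
import Fermat.Agent.Hecke.IntegralBasis
import Fermat.Agent.Auto.Petersson
import Mathlib.RingTheory.Radical.Basic
import Mathlib.RingTheory.Localization.Integral
import Mathlib.LinearAlgebra.Semisimple
import Mathlib.FieldTheory.Perfect

/-!
Relations among the twisted operators over an algebraically closed field, and their semisimplicity.
-/

set_option autoImplicit false
set_option linter.unusedSectionVars false

noncomputable section

namespace Fermat.Agent.Auto.Tw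

open CongruenceSubgroup
open Fermat.Agent.GalRep (IMat GoodPrime GoodPrimeOff evFormsOff)
open Fermat.Agent.GalRep.Level (ParG IsDiamond heckeRepG)
open Fermat.Agent.DS (IsReps diaMat diaMat_mem)
open scoped MatrixGroups

variable {K : Type} [Field K] [CharZero K] [IsAlgClosed K]
variable {M D : ℕ} [NeZero M] [NeZero (M * D)] {Δ : Type} [CommGroup Δ] [Finite Δ]
  {c : (ZMod M)ˣ →* Δ}

/-- A character descends to the units of a divisor. -/
theorem exists_mulChar (hD : D ∣ M) (χ : (ZMod M)ˣ →* Kˣ)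
    (h : ∀ u : (ZMod M)ˣ, ((u : ZMod M).val : ZMod D) = 1 → χ u = 1) :
    ∃ η : MulChar (ZMod D) K, ∀ u : (ZMod M)ˣ, η ((u : ZMod M).val : ZMod D) = (χ u : K) := by
  classical
  haveI : NeZero D := ⟨fun h => NeZero.ne M (by subst h; exact Nat.eq_zero_of_zero_dvd hD)⟩
  have hmap : ∀ u : (ZMod M)ˣ, ((ZMod.unitsMap hD u : (ZMod D)ˣ) : ZMod D) = ((u : ZMod M).val : ZMod D) :=
    fun u => by rw [ZMod.unitsMap_def, Units.coe_map]; exact ZMod.cast_eq_val _
  have hsurj := ZMod.unitsMap_surjective hD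
  choose s hs using hsurj
  have key : ∀ u u', ZMod.unitsMap hD u = ZMod.unitsMap hD u' → χ u = χ u' := fun u u' e => by
    have : χ (u * u'⁻¹) = 1 := h _ (by
      rw [← hmap, map_mul, map_inv, e, mul_inv_cancel, Units.val_one])
    rwa [map_mul, map_inv, mul_inv_eq_one] at this
  let φ : (ZMod D)ˣ →* Kˣ := MonoidHom.mk' (fun x => χ (s x)) fun x y => by
    rw [← map_mul]; exact key _ _ (by rw [hs, map_mul, hs, hs])
  refine ⟨MulChar.ofUnitHom φ, fun u => ?_⟩
  rw [← hmap, MulChar.ofUnitHom_coe]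
  exact congrArg Units.val (key _ _ (hs _))

variable {S : Set ℕ}

/-- The twisted operator of an index. -/
abbrev twOp (i : GoodPrimeOff (M * D) S) : Module.End K (Lat M c K) :=
  twT M c K (downPrime (dvd_mul_right M D) i.1)

/-- The unit of a good prime. -/
abbrev primeUnit (ℓ : GoodPrime M) : (ZMod M)ˣ :=
  ZMod.unitOfCoprime _ (ℓ.1.2.coprime_iff_not_dvd.2 ℓ.2)

theorem twT_latDia (ℓ : GoodPrime M) (d : (ZMod M)ˣ) :
    Commute (twT M c K ℓ) (latDia M c K d) :=
  (latT_latDia' ℓ d).mul_left (by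
    show latDia M c K _ * latDia M c K d = latDia M c K d * latDia M c K _
    rw [← latDia_mul', ← latDia_mul', mul_comm])

theorem twT_commute (ℓ ℓ' : GoodPrime M) : Commute (twT M c K ℓ) (twT M c K ℓ') :=
  ((latT_commute' ℓ ℓ').mul_right (latT_latDia' ℓ _)).mul_left (twT_latDia ℓ' _).symm

set_option maxHeartbeats 1000000 in
/-- A relation at level `M D` on forms holds for the twisted operators. -/
theorem lift_twOp_eq_zero (hD : D ∣ M) (hsq : Squarefree D)
    (hcD : ∀ u : (ZMod M)ˣ, ((u : ZMod M).val : ZMod D) = 1 → c u = 1)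
    (hodd : Odd (Nat.card Δ)) {P : MvPolynomial (GoodPrimeOff (M * D) S) ℤ}
    (hP : evFormsOff S P = 0) {W : FreeAlgebra ℤ (GoodPrimeOff (M * D) S)}
    (hW : FreeAlgebra.lift ℤ MvPolynomial.X W = P) :
    FreeAlgebra.lift ℤ (twOp (K := K) (c := c)) W = 0 := by
  classical
  haveI : Fintype ((ZMod M)ˣ →* Kˣ) := Fintype.ofFinite _
  refine LinearMap.ext fun v => ?_
  rw [LinearMap.zero_apply, ← sum_comp (c := c) v, map_sum]
  refine Finset.sum_eq_zero fun φ _ => ?_
  set w := comp (c := c) φ v with hw_def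
  by_cases hw : w = 0
  · rw [hw, map_zero]
  have hφc : ∀ u, c u = 1 → φ u = 1 := fun u hu => by
    have h := latDia_comp φ u v
    rw [latDia_eq_one' hu, Module.End.one_apply, ← hw_def] at h
    have h2 : ((φ u : K) - 1) • w = 0 := (_root_.sub_smul (φ u : K) 1 w).trans (by
      rw [one_smul, ← h, sub_self])
    exact Units.ext (sub_eq_zero.mp ((smul_eq_zero.mp h2).resolve_right hw))
  have hφn : ∀ u, φ u ^ Nat.card Δ = 1 := fun u => by
    rw [← map_pow]; exact hφc _ (by rw [map_pow, pow_card_eq_one'])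
  set h := (Nat.card Δ - 1) / 2 with hh_def
  have hh : Nat.card Δ = 2 * h + 1 := by obtain ⟨t, ht⟩ := hodd; omega
  obtain ⟨η, hη⟩ := exists_mulChar (K := K) hD (φ ^ h) (fun u hu => by
    rw [MonoidHom.pow_apply, hφc u (hcD u hu), one_pow])
  have hηn : η ^ Nat.card Δ = 1 := MulChar.ext fun u => by
    obtain ⟨u', rfl⟩ := ZMod.unitsMap_surjective hD u
    rw [MulChar.pow_apply_coe, MulChar.one_apply_coe, ZMod.unitsMap_def, Units.coe_map]
    show η ((ZMod.cast (u' : ZMod M) : ZMod D)) ^ Nat.card Δ = 1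
    rw [ZMod.cast_eq_val, hη, ← Units.val_pow_eq_pow_val, MonoidHom.pow_apply, ← pow_mul,
      mul_comm, pow_mul, hφn, one_pow, Units.val_one]
  have hval : ∀ (x : ℤ) (d : (ZMod M)ˣ), (x : ZMod M) = d →
      η (x : ZMod D) = (φ d : K) ^ h ∧ psiOf η x = (φ d : K) := fun x d hx => by
    have e : (x : ZMod D) = ((d : ZMod M).val : ZMod D) := by
      rw [← hx, ← ZMod.cast_eq_val, ZMod.cast_intCast hD]
    have e1 : η (x : ZMod D) = (φ d : K) ^ h := by rw [e, hη]; simp
    refine ⟨e1, ?_⟩
    rw [psiOf, e1, inv_eq_of_mul_eq_one_right]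
    rw [← pow_mul, ← pow_succ, mul_comm h 2, ← hh, ← Units.val_pow_eq_pow_val, hφn, Units.val_one]
  have hML : M ∣ M * D := dvd_mul_right M D
  have hlv : embLat (K := K) w ∈ lv (M * D) (psiOf η) := by
    refine ⟨embLat_mem_parGerm w, fun δ hδ => ?_⟩
    have hδM : δ ∈ Gamma0 M := Newform.mem_Gamma0_iff_dvd.mpr
      ((Int.natCast_dvd_natCast.mpr hML).trans (Newform.mem_Gamma0_iff_dvd.mp hδ))
    rw [sl_embLat hδM (elevenUnit hδM) (coe_elevenUnit hδM).symm, hw_def, latDia_comp, map_smul,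
      (hval _ _ (coe_elevenUnit hδM).symm).2]
  have hint := (intertwine
    (fun i : GoodPrimeOff (M * D) S => (twOp (K := K) (c := c) i).toAddMonoidHom.toIntLinearMap)
    (opZ ellOf (wA ellOf η) (wB ellOf η)) (embLat (K := K) (M := M) (c := c)).toAddMonoidHom
    (fun x => ∀ d, latDia M c K d x = (φ d : K) • x)
    (fun i x hx d => by
      show latDia M c K d (twOp i x) = (φ d : K) • twOp i x
      rw [← Module.End.mul_apply, ← (twT_latDia (downPrime hML i.1) d).eq, Module.End.mul_apply, hx,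
        map_smul])
    (fun x y hx hy d => by rw [map_add, hx, hy, smul_add])
    (fun n x hx d => by rw [map_zsmul, hx, smul_comm])
    (fun i x hx => by
      let ℓ := downPrime hML i.1
      have hℓ : (ℓ : ℕ).Prime := ℓ.1.2
      have hcop := hℓ.coprime_iff_not_dvd.2 ℓ.2
      have hv := hval ((ℓ : ℕ) : ℤ) (primeUnit ℓ) (by rw [ZMod.coe_unitOfCoprime, Int.cast_natCast])
      have hper : Periodic (embLat (K := K) x) := fun n => by
        have hn : ModularGroup.T ^ n ∈ Gamma0 M := by
          rw [Gamma0_mem, ModularGroup.coe_T_zpow]; simp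
        have h2 := sl_embLat (c := c) hn 1 (by rw [ModularGroup.coe_T_zpow]; simp) x
        rw [ModularGroup.coe_T_zpow] at h2
        rw [latDia_eq_one' (map_one c)] at h2
        exact h2
      have hR := DS.isDiamond_diaMat_prime (M := M) hcop
      show embLat (K := K) (latT M c K ℓ (latDia M c K (primeUnit ℓ ^ h) x)) =
        opS (wA ellOf η i) (wB ellOf η i) (ℓ : ℕ) (embLat (K := K) x)
      rw [hx, map_smul, map_smul, map_pow, Units.val_pow_eq_pow_val, latT, embLat_transferEnd,
        sum_heckeRepG_eq hℓ.ne_zero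
          ((ZMod.isUnit_iff_coprime M (ℓ : ℕ)).2 hcop.symm) hper (b := (φ (primeUnit ℓ) : K))]
      · show _ = opS (η (((ℓ : ℕ) : ℤ) : ZMod D)) (psiOf η (((ℓ : ℕ) : ℤ))) (ℓ : ℕ) _
        rw [hv.1, hv.2]
      · rw [sl_embLat (c := c) (diaMat_mem _) (primeUnit ℓ) (DS.diaMat_eleven _), hx, map_smul])
    W w (fun d => latDia_comp φ d v)).2
  have hkill : ev ellOf (wA ellOf η) (wB ellOf η) W (embLat (K := K) w) = 0 :=
    kills_all (L := M * D) (fun i => i.1.1.2) (fun i => i.1.2) hsq (fun q hq hqD => by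
      obtain ⟨a, ha⟩ := hqD.trans hD
      obtain ⟨b, hb⟩ := hqD
      refine ⟨⟨a * b, by rw [ha, hb]; ring⟩, ⟨a, ?_⟩⟩
      rw [ha, show q * a * D = q * (D * a) by ring, Nat.mul_div_cancel_left _ hq.pos])
      W (fun F hF => ev_one_eq_zero hP hW hF) D dvd_rfl η (Nat.card Δ) hodd hηn _ hlv
  apply embLat_injective (K := K)
  rw [map_zero, ← hkill]
  have e : ∀ x, FreeAlgebra.lift ℤ (twOp (K := K) (c := c)) W x = FreeAlgebra.lift ℤ
      (fun i : GoodPrimeOff (M * D) S =>
        (twOp (K := K) (c := c) i).toAddMonoidHom.toIntLinearMap) W x := by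
    clear hint hkill hW
    induction W using FreeAlgebra.induction with
    | grade0 r => intro x; simp
    | grade1 i => intro x; simp [FreeAlgebra.lift_ι_apply]
    | mul a b ha hb => intro x; simp [ha, hb]
    | add a b ha hb => intro x; simp [ha, hb]
  rw [e]
  exact hint

end Fermat.Agent.Auto.Tw
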